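/-
S21 block (1): the Eichler integral `prim f` of a weight two cusp form on `Γ₀(N)` is an
equivariant primitive in the sense of the Prelude, `periodMap N f` is computed by it, and the
period map is `ℂ`-linear.  Owner: helper28.
-/
import Mathlib
import Fermat.Prelude.Def_ModularCurve_PeriodHomPair
import Fermat.Agent.S22.Forms

set_option autoImplicit false

namespace Fermat.Agent.S21

open UpperHalfPlane CongruenceSubgroup Filter Topology ModularCurve ModularCurve.Period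
open scoped MatrixGroups ModularForm Manifold
open Fermat.Agent.S22

/-- Chain rule for the action of `SL(2, ℤ)` on `ℍ`: the derivative of `z ↦ F (δ • z)` is the
weight two slash of the derivative of `F`. -/
theorem hasDerivH_comp_SL {F F' : ℍ → ℂ} (hF : HasDerivH F F') (δ : SL(2, ℤ)) :
    HasDerivH (fun z => F (δ • z))
      (F' ∣[(2 : ℤ)] (Matrix.SpecialLinearGroup.mapGL ℝ δ : GL (Fin 2) ℝ)) := by
  have h := hF.comp_smul (det_mapGL_pos δ)
  refine HasDerivH.congr_deriv h fun z => ?_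
  have h1 := ModularForm.SL_slash_apply (k := 2) F' δ z
  have h2 : (F' ∣[(2 : ℤ)] (Matrix.SpecialLinearGroup.mapGL ℝ δ : GL (Fin 2) ℝ)) z
      = (F' ∣[(2 : ℤ)] δ) z := rfl
  rw [h2, h1]
  have hdet : (((Matrix.SpecialLinearGroup.mapGL ℝ δ : GL (Fin 2) ℝ).det.val : ℝ) : ℂ) = 1 := by
    simp
  rw [hdet, mul_one, zpow_neg, div_eq_mul_inv]
  rfl

variable {N : ℕ} [NeZero N]

/-- The Eichler integral of a weight two cusp form is a primitive of it. -/
theorem prim_hasDerivH (f : CuspForm (Gamma0 N) 2) : HasDerivH (prim (f : ℍ → ℂ)) f :=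
  (prim_spec one_pos (cuspForm_cuspPer f)).1

/-- The Eichler integral of a weight two cusp form is holomorphic, `1`-periodic and zero at
`i∞`. -/
theorem prim_cuspPer (f : CuspForm (Gamma0 N) 2) : CuspPer 1 (prim (f : ℍ → ℂ)) :=
  (prim_spec one_pos (cuspForm_cuspPer f)).2

theorem natCast_pos_real (N : ℕ) [NeZero N] : (0 : ℝ) < (N : ℝ) :=
  Nat.cast_pos.mpr (Nat.pos_of_ne_zero (NeZero.ne N))

/-- The Eichler integral of an `SL(2, ℤ)`-translate of a weight two cusp form. -/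
theorem prim_slash_spec (f : CuspForm (Gamma0 N) 2) (δ : SL(2, ℤ)) :
    HasDerivH (prim ((f : ℍ → ℂ) ∣[(2 : ℤ)] (Matrix.SpecialLinearGroup.mapGL ℝ δ : GL (Fin 2) ℝ)))
        ((f : ℍ → ℂ) ∣[(2 : ℤ)] (Matrix.SpecialLinearGroup.mapGL ℝ δ : GL (Fin 2) ℝ)) ∧
      CuspPer (N : ℝ)
        (prim ((f : ℍ → ℂ) ∣[(2 : ℤ)] (Matrix.SpecialLinearGroup.mapGL ℝ δ : GL (Fin 2) ℝ))) :=
  prim_spec (natCast_pos_real N) (cuspForm_slash_cuspPer f δ)

/-- For `δ ∈ SL(2, ℤ)`, the function `z ↦ prim f (δ • z)` differs by a constant from the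
Eichler integral of the translate `f ∣[2] δ`. -/
theorem prim_comp_SL (f : CuspForm (Gamma0 N) 2) (δ : SL(2, ℤ)) :
    ∃ c : ℂ, ∀ z : ℍ, prim (f : ℍ → ℂ) (δ • z) =
      prim ((f : ℍ → ℂ) ∣[(2 : ℤ)] (Matrix.SpecialLinearGroup.mapGL ℝ δ : GL (Fin 2) ℝ)) z + c :=
  (hasDerivH_comp_SL (prim_hasDerivH f) δ).eq_add_const (prim_slash_spec f δ).1

/-- `z ↦ prim f (δ • z)` has a limit at `i∞`, for every `δ ∈ SL(2, ℤ)`. -/
theorem prim_comp_SL_tendsto (f : CuspForm (Gamma0 N) 2) (δ : SL(2, ℤ)) :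
    ∃ L : ℂ, Tendsto (fun w : ℍ => prim (f : ℍ → ℂ) (δ • w)) atImInfty (𝓝 L) := by
  obtain ⟨c, hc⟩ := prim_comp_SL f δ
  refine ⟨c, ?_⟩
  have h0 : Tendsto
      (prim ((f : ℍ → ℂ) ∣[(2 : ℤ)] (Matrix.SpecialLinearGroup.mapGL ℝ δ : GL (Fin 2) ℝ)))
      atImInfty (𝓝 0) := (prim_slash_spec f δ).2.zero
  have h1 := h0.add_const c
  rw [zero_add] at h1
  refine h1.congr fun z => ?_
  rw [hc z]

/-- `z ↦ prim f (δ • z)` is `N`-periodic, for every `δ ∈ SL(2, ℤ)`. -/
theorem prim_comp_SL_periodic (f : CuspForm (Gamma0 N) 2) (δ : SL(2, ℤ)) (w : ℍ) :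
    prim (f : ℍ → ℂ) (δ • ((N : ℝ) +ᵥ w)) = prim (f : ℍ → ℂ) (δ • w) := by
  obtain ⟨c, hc⟩ := prim_comp_SL f δ
  rw [hc, hc]
  congr 1
  have hper := (prim_slash_spec f δ).2.per (w : ℂ)
  simp only [Function.comp_apply, ofComplex_apply] at hper
  rw [← hper]
  congr 1
  have hpos : 0 < ((w : ℂ) + ((N : ℝ) : ℂ)).im := by
    simpa using w.im_pos
  rw [ofComplex_apply_of_im_pos hpos]
  apply UpperHalfPlane.ext
  simp [add_comm]

/-- The Eichler integral is an equivariant primitive for `Γ₀(N)`. -/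
theorem prim_isEquivariantPrimitive (f : CuspForm (Gamma0 N) 2) :
    IsEquivariantPrimitive (Gamma0 N) (prim (f : ℍ → ℂ)) := by
  intro γ
  have h1 := hasDerivH_comp_SL (prim_hasDerivH f) (γ : SL(2, ℤ))
  rw [cuspForm_slash_mapGL f γ.2] at h1
  obtain ⟨c, hc⟩ := h1.eq_add_const (prim_hasDerivH f)
  exact ⟨c, fun z => by rw [hc z]; ring⟩

/-- The Eichler integral witnesses `HasEquivariantPrimitive`. -/
theorem hasEquivariantPrimitive_prim (N : ℕ) [NeZero N] (f : CuspForm (Gamma0 N) 2) :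
    HasEquivariantPrimitive N f (prim (f : ℍ → ℂ)) :=
  ⟨prim_hasDerivH f, (prim_cuspPer f).zero, prim_isEquivariantPrimitive f,
    prim_comp_SL_tendsto f⟩

/-- Any function satisfying `HasEquivariantPrimitive` is the Eichler integral. -/
theorem eq_prim_of_hasEquivariantPrimitive {f : CuspForm (Gamma0 N) 2} {F : ℍ → ℂ}
    (hF : HasEquivariantPrimitive N f F) : F = prim (f : ℍ → ℂ) :=
  prim_unique (g := (f : ℍ → ℂ)) hF.1 (prim_hasDerivH f) hF.2.1 (prim_cuspPer f).zero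

/-- The period map is computed by the Eichler integral, at any base point. -/
theorem periodMap_apply (N : ℕ) [NeZero N] (f : CuspForm (Gamma0 N) 2) (γ : Gamma0 N) (z : ℍ) :
    periodMap N f (Additive.ofMul γ) =
      prim (f : ℍ → ℂ) ((γ : SL(2, ℤ)) • z) - prim (f : ℍ → ℂ) z := by
  obtain ⟨F₀, h₀, hP⟩ := periodMap_def N f (hasEquivariantPrimitive_prim N f)
  have hF₀ : F₀ = prim (f : ℍ → ℂ) := eq_prim_of_hasEquivariantPrimitive h₀
  subst hF₀
  rw [hP, IsEquivariantPrimitive.periodHom_apply, ← h₀.2.2.1.sub_eq_period γ z]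

theorem periodMap_add (f g : CuspForm (Gamma0 N) 2) :
    periodMap N (f + g) = periodMap N f + periodMap N g := by
  refine AddMonoidHom.ext fun γ => ?_
  obtain ⟨γ, rfl⟩ := Additive.ofMul.surjective γ
  rw [AddMonoidHom.add_apply, periodMap_apply N (f + g) γ UpperHalfPlane.I,
    periodMap_apply N f γ UpperHalfPlane.I, periodMap_apply N g γ UpperHalfPlane.I]
  have h : prim ((f + g : CuspForm (Gamma0 N) 2) : ℍ → ℂ)
      = prim (f : ℍ → ℂ) + prim (g : ℍ → ℂ) := by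
    rw [show ((f + g : CuspForm (Gamma0 N) 2) : ℍ → ℂ) = (f : ℍ → ℂ) + (g : ℍ → ℂ) from rfl]
    exact prim_add one_pos (cuspForm_cuspPer f) (cuspForm_cuspPer g)
  rw [h]
  simp only [Pi.add_apply]
  ring

theorem periodMap_smul (c : ℂ) (f : CuspForm (Gamma0 N) 2) :
    periodMap N (c • f) = c • periodMap N f := by
  refine AddMonoidHom.ext fun γ => ?_
  obtain ⟨γ, rfl⟩ := Additive.ofMul.surjective γ
  rw [AddMonoidHom.smul_apply, periodMap_apply N (c • f) γ UpperHalfPlane.I,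
    periodMap_apply N f γ UpperHalfPlane.I]
  have h : prim ((c • f : CuspForm (Gamma0 N) 2) : ℍ → ℂ) = c • prim (f : ℍ → ℂ) := by
    rw [show ((c • f : CuspForm (Gamma0 N) 2) : ℍ → ℂ) = c • (f : ℍ → ℂ) from rfl]
    exact prim_smul one_pos c (cuspForm_cuspPer f)
  rw [h]
  simp only [Pi.smul_apply, smul_eq_mul]
  ring

/-- The period map as a `ℂ`-linear map. -/
noncomputable def periodMapLinear (N : ℕ) [NeZero N] :
    CuspForm (Gamma0 N) 2 →ₗ[ℂ] (Additive (Gamma0 N) →+ ℂ) where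
  toFun f := periodMap N f
  map_add' := periodMap_add
  map_smul' := periodMap_smul

@[simp] theorem periodMapLinear_apply (f : CuspForm (Gamma0 N) 2) :
    periodMapLinear N f = periodMap N f := rfl

/-- The period map is linear. -/
theorem existsPeriodMapLinear (N : ℕ) [NeZero N] : ExistsPeriodMapLinear N :=
  ⟨periodMapLinear N, fun _ => rfl⟩

end Fermat.Agent.S21
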