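import Mathlib

/-!
# Linear algebra on a finite `G`-set (helper file for the parabolic cohomology bound)

For a group `G` acting on a finite type `X` we study the spaces
`kerN2 g = {a : X → ℂ | a (g • x) + a x = 0}` and
`kerN3 g = {a : X → ℂ | a (g • g • x) + a (g • x) + a x = 0}`.
-/

set_option autoImplicit false

namespace Fermat.Agent.S21

open Module

section Abstract

variable {G : Type*} [Group G] {X : Type*} [MulAction G X]

/-- The orbit space of the cyclic group generated by `g`. -/
abbrev CycOrb (g : G) (X : Type*) [MulAction G X] : Type _ :=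
  MulAction.orbitRel.Quotient (Subgroup.zpowers g) X

/-- The projection to the orbit space of `⟨g⟩`. -/
def cycProj (g : G) (x : X) : CycOrb g X := Quotient.mk'' x

theorem cycProj_smul (g : G) (x : X) : cycProj g (g • x) = cycProj g x := by
  apply Quotient.sound'
  show (MulAction.orbitRel (Subgroup.zpowers g) X) (g • x) x
  rw [MulAction.orbitRel_apply]
  exact ⟨⟨g, Subgroup.mem_zpowers g⟩, rfl⟩

theorem cycProj_surjective (g : G) : Function.Surjective (cycProj (X := X) g) :=
  Quotient.mk''_surjective

/-- Functions killed by `1 + g`. -/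
def kerN2 (g : G) (X : Type*) [MulAction G X] : Submodule ℂ (X → ℂ) where
  carrier := {a | ∀ x, a (g • x) + a x = 0}
  zero_mem' := by intro x; simp
  add_mem' := by
    intro a b ha hb x
    have h1 := ha x
    have h2 := hb x
    simp only [Pi.add_apply]
    linear_combination h1 + h2
  smul_mem' := by
    intro c a ha x
    have h1 := ha x
    simp only [Pi.smul_apply, smul_eq_mul]
    linear_combination c * h1

/-- Functions killed by `1 + g + g^2`. -/
def kerN3 (g : G) (X : Type*) [MulAction G X] : Submodule ℂ (X → ℂ) where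
  carrier := {a | ∀ x, a (g • g • x) + a (g • x) + a x = 0}
  zero_mem' := by intro x; simp
  add_mem' := by
    intro a b ha hb x
    have h1 := ha x
    have h2 := hb x
    simp only [Pi.add_apply]
    linear_combination h1 + h2
  smul_mem' := by
    intro c a ha x
    have h1 := ha x
    simp only [Pi.smul_apply, smul_eq_mul]
    linear_combination c * h1

theorem mem_kerN2 {g : G} {a : X → ℂ} : a ∈ kerN2 g X ↔ ∀ x, a (g • x) + a x = 0 := Iff.rfl

theorem mem_kerN3 {g : G} {a : X → ℂ} :
    a ∈ kerN3 g X ↔ ∀ x, a (g • g • x) + a (g • x) + a x = 0 := Iff.rfl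

/-- General principle: if a subspace `Z` of functions on a finite set `X` meets the functions
factoring through a surjection `q : X → Ω` trivially then `dim Z + #Ω ≤ #X`. -/
theorem finrank_add_card_le_of_disjoint [Finite X] {Ω : Type*} [Finite Ω] (q : X → Ω)
    (hq : Function.Surjective q) (Z : Submodule ℂ (X → ℂ))
    (hZ : ∀ w : Ω → ℂ, (w ∘ q) ∈ Z → w ∘ q = 0) :
    finrank ℂ Z + Nat.card Ω ≤ Nat.card X := by
  classical
  have := Fintype.ofFinite X
  have := Fintype.ofFinite Ω
  let L : (Z × (Ω → ℂ)) →ₗ[ℂ] (X → ℂ) :=
    LinearMap.coprod Z.subtype (LinearMap.funLeft ℂ ℂ q)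
  have hL : Function.Injective L := by
    rw [← LinearMap.ker_eq_bot, LinearMap.ker_eq_bot']
    rintro ⟨a, w⟩ h
    have h' : (a : X → ℂ) + w ∘ q = 0 := h
    have hw : w ∘ q ∈ Z := by
      have : w ∘ q = -(a : X → ℂ) := by
        rw [eq_neg_iff_add_eq_zero, add_comm]; exact h'
      rw [this]; exact Z.neg_mem a.2
    have hw0 := hZ w hw
    have hw1 : w = 0 := by
      funext ω
      obtain ⟨x, rfl⟩ := hq ω
      exact congrFun hw0 x
    have ha : (a : X → ℂ) = 0 := by rw [hw0, add_zero] at h'; exact h'
    ext1
    · exact Subtype.ext ha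
    · exact hw1
  have h1 := LinearMap.finrank_le_finrank_of_injective hL
  rw [Module.finrank_prod, Module.finrank_fintype_fun_eq_card, Module.finrank_fintype_fun_eq_card]
    at h1
  rwa [Nat.card_eq_fintype_card, Nat.card_eq_fintype_card]

theorem finrank_kerN2_add_card_le [Finite X] (g : G) :
    finrank ℂ (kerN2 g X) + Nat.card (CycOrb g X) ≤ Nat.card X := by
  refine finrank_add_card_le_of_disjoint (cycProj g) (cycProj_surjective g) _ ?_
  intro w hw
  funext x
  have h := hw x
  simp only [Function.comp_apply, cycProj_smul] at h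
  have h2 : (2 : ℂ) * w (cycProj g x) = 0 := by linear_combination h
  simpa using h2

theorem finrank_kerN3_add_card_le [Finite X] (g : G) :
    finrank ℂ (kerN3 g X) + Nat.card (CycOrb g X) ≤ Nat.card X := by
  refine finrank_add_card_le_of_disjoint (cycProj g) (cycProj_surjective g) _ ?_
  intro w hw
  funext x
  have h := hw x
  simp only [Function.comp_apply, cycProj_smul] at h
  have h2 : (3 : ℂ) * w (cycProj g x) = 0 := by linear_combination h
  simpa using h2

/-- Variant of `finrank_kerN3_add_card_le` for the conjugate element: the kernel is taken for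
`t * s` and the orbits for `s * t`. -/
theorem finrank_kerN3_conj_add_card_le [Finite X] (s t : G) :
    finrank ℂ (kerN3 (t * s) X) + Nat.card (CycOrb (s * t) X) ≤ Nat.card X := by
  have hsurj : Function.Surjective (fun x : X => cycProj (s * t) (t⁻¹ • x)) := by
    intro ω
    obtain ⟨x, rfl⟩ := cycProj_surjective (s * t) ω
    exact ⟨t • x, by simp⟩
  refine finrank_add_card_le_of_disjoint _ hsurj _ ?_
  intro w hw
  have key : ∀ x : X, cycProj (s * t) (t⁻¹ • (t * s) • x) = cycProj (s * t) (t⁻¹ • x) := by
    intro x
    have : t⁻¹ • (t * s) • x = (s * t) • (t⁻¹ • x) := by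
      simp [mul_smul]
    rw [this, cycProj_smul]
  funext x
  have h := hw x
  simp only [Function.comp_apply, key] at h
  have h2 : (3 : ℂ) * w (cycProj (s * t) (t⁻¹ • x)) = 0 := by linear_combination h
  simpa using h2

end Abstract

section Span

variable {G : Type*} [Group G] {X : Type*} [MulAction G X]

/-- difference of two delta functions -/
noncomputable def dlt (x y : X) : X → ℂ :=
  open Classical in fun z => (if z = x then 1 else 0) - (if z = y then 1 else 0)

theorem dlt_self (x : X) : dlt x x = 0 := by
  funext z; simp [dlt]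

theorem dlt_add (x y z : X) : dlt x y + dlt y z = dlt x z := by
  funext t; simp [dlt]

theorem dlt_neg (x y : X) : -dlt x y = dlt y x := by
  funext t; simp [dlt]

theorem dlt_mem_kerN2 (s : G) (hs : ∀ x : X, s • s • x = x) (x : X) :
    dlt (s • x) x ∈ kerN2 s X := by
  classical
  intro y
  have e1 : (s • y = s • x) ↔ y = x := smul_left_cancel_iff s
  have e2 : (s • y = x) ↔ y = s • x := by
    constructor
    · intro h; rw [← h, hs]
    · intro h; rw [h, hs]
  simp only [dlt, e1, e2]
  ring

theorem dlt_mem_kerN3 (w : G) (hw : ∀ x : X, w • w • w • x = x) (x : X) :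
    dlt (w • x) x ∈ kerN3 w X := by
  classical
  intro y
  have e1 : (w • w • y = w • x) ↔ w • y = x := smul_left_cancel_iff w
  have e2 : (w • y = w • x) ↔ y = x := smul_left_cancel_iff w
  have e3 : (w • w • y = x) ↔ y = w • x := by
    constructor
    · intro h; rw [← h, hw]
    · intro h; rw [h, hw]
  simp only [dlt, e1, e2, e3]
  ring

/-- If `s, w` generate `G`, `G` acts transitively on `X`, `s^2` and `w^3` act trivially, then
all differences of delta functions lie in `kerN2 s ⊔ kerN3 w`. -/
theorem dlt_mem_sup (s w : G) (hgen : Subgroup.closure {s, w} = ⊤)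
    [MulAction.IsPretransitive G X]
    (hs : ∀ x : X, s • s • x = x) (hw : ∀ x : X, w • w • w • x = x) (x y : X) :
    dlt x y ∈ kerN2 s X ⊔ kerN3 w X := by
  let H : Subgroup G :=
    { carrier := {g | ∀ x : X, dlt (g • x) x ∈ kerN2 s X ⊔ kerN3 w X}
      mul_mem' := by
        intro g h hg hh x
        rw [mul_smul, ← dlt_add (g • h • x) (h • x) x]
        exact Submodule.add_mem _ (hg (h • x)) (hh x)
      one_mem' := by
        intro x
        rw [one_smul, dlt_self]
        exact Submodule.zero_mem _
      inv_mem' := by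
        intro g hg x
        have h := hg (g⁻¹ • x)
        rw [smul_inv_smul] at h
        rw [← dlt_neg]
        exact Submodule.neg_mem _ h }
  have hH : H = ⊤ := by
    rw [eq_top_iff, ← hgen, Subgroup.closure_le]
    intro g hg
    rcases hg with rfl | hg
    · intro x
      exact Submodule.mem_sup_left (dlt_mem_kerN2 g hs x)
    · rw [Set.mem_singleton_iff] at hg
      subst hg
      intro x
      exact Submodule.mem_sup_right (dlt_mem_kerN3 g hw x)
  obtain ⟨g, rfl⟩ := MulAction.exists_smul_eq G y x
  have : g ∈ H := by rw [hH]; trivial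
  exact this y

/-- Under the hypotheses of `dlt_mem_sup`, the sum `kerN2 s ⊔ kerN3 w` has codimension at most
one. -/
theorem card_le_finrank_sup_add_one [Finite X] (s w : G) (hgen : Subgroup.closure {s, w} = ⊤)
    [MulAction.IsPretransitive G X]
    (hs : ∀ x : X, s • s • x = x) (hw : ∀ x : X, w • w • w • x = x) :
    Nat.card X ≤ finrank ℂ (kerN2 s X ⊔ kerN3 w X : Submodule ℂ (X → ℂ)) + 1 := by
  classical
  have := Fintype.ofFinite X
  let sumL : (X → ℂ) →ₗ[ℂ] ℂ := ∑ x : X, LinearMap.proj x
  have hsum : ∀ a : X → ℂ, sumL a = ∑ x : X, a x := by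
    intro a
    simp [sumL, LinearMap.sum_apply]
  have hker : LinearMap.ker sumL ≤ kerN2 s X ⊔ kerN3 w X := by
    intro a ha
    rw [LinearMap.mem_ker, hsum] at ha
    rcases isEmpty_or_nonempty X with hX | ⟨⟨x₀⟩⟩
    · have : a = 0 := by funext x; exact (hX.false x).elim
      rw [this]; exact Submodule.zero_mem _
    · have hrep : a = ∑ x : X, a x • dlt x x₀ := by
        funext z
        have h1 : ∑ x : X, a x * (if z = x then (1 : ℂ) else 0) = a z := by simp
        have h2 : ∑ x : X, a x * (if z = x₀ then (1 : ℂ) else 0) = 0 := by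
          rw [← Finset.sum_mul, ha, zero_mul]
        simp only [Finset.sum_apply, Pi.smul_apply, dlt, smul_eq_mul, mul_sub,
          Finset.sum_sub_distrib]
        rw [h1, h2, sub_zero]
      rw [hrep]
      exact Submodule.sum_mem _ fun x _ => Submodule.smul_mem _ _ (dlt_mem_sup s w hgen hs hw x x₀)
  have h1 := LinearMap.finrank_range_add_finrank_ker sumL
  have h2 : finrank ℂ (LinearMap.range sumL) ≤ 1 := by
    have := Submodule.finrank_le (LinearMap.range sumL)
    simpa using this
  have h3 := Submodule.finrank_mono hker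
  rw [Module.finrank_fintype_fun_eq_card] at h1
  rw [Nat.card_eq_fintype_card]
  omega

end Span

end Fermat.Agent.S21
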