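import Mathlib
import Fermat.Prelude.Def_ModularCurve_PeriodMap
import Fermat.Agent.S21.OrbitLinAlg

/-!
# Upper bound for the dimension of the parabolic homomorphisms of a finite index subgroup

For `Γ ≤ SL(2, ℤ)` of finite index containing `-1`, and `X = SL(2, ℤ) ⧸ Γ`:

`dim Hom_par(Γ, ℂ) + #(X/⟨S⟩) + #(X/⟨S*T⟩) + #(X/⟨T⟩) ≤ [SL(2, ℤ) : Γ] + 2`.
-/

set_option autoImplicit false

open scoped MatrixGroups
open ModularCurve.Period ModularGroup Module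

namespace Fermat.Agent.S21

variable (Γ : Subgroup SL(2, ℤ))

/-- extension by zero of a homomorphism on `Γ` -/
noncomputable def ext0 (φ : Additive Γ →+ ℂ) (g : SL(2, ℤ)) : ℂ :=
  open Classical in if h : g ∈ Γ then φ (Additive.ofMul ⟨g, h⟩) else 0

theorem ext0_of_mem (φ : Additive Γ →+ ℂ) {g : SL(2, ℤ)} (h : g ∈ Γ) :
    ext0 Γ φ g = φ (Additive.ofMul ⟨g, h⟩) := by
  unfold ext0
  rw [dif_pos h]

theorem ext0_mul (φ : Additive Γ →+ ℂ) {g h : SL(2, ℤ)} (hg : g ∈ Γ) (hh : h ∈ Γ) :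
    ext0 Γ φ (g * h) = ext0 Γ φ g + ext0 Γ φ h := by
  rw [ext0_of_mem Γ φ hg, ext0_of_mem Γ φ hh, ext0_of_mem Γ φ (Γ.mul_mem hg hh), ← map_add]
  rfl

theorem ext0_add (φ ψ : Additive Γ →+ ℂ) (g : SL(2, ℤ)) :
    ext0 Γ (φ + ψ) g = ext0 Γ φ g + ext0 Γ ψ g := by
  by_cases h : g ∈ Γ
  · rw [ext0_of_mem Γ _ h, ext0_of_mem Γ _ h, ext0_of_mem Γ _ h]; rfl
  · unfold ext0; rw [dif_neg h, dif_neg h, dif_neg h, add_zero]

theorem ext0_smul (c : ℂ) (φ : Additive Γ →+ ℂ) (g : SL(2, ℤ)) :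
    ext0 Γ (c • φ) g = c * ext0 Γ φ g := by
  by_cases h : g ∈ Γ
  · rw [ext0_of_mem Γ _ h, ext0_of_mem Γ _ h]; rfl
  · unfold ext0; rw [dif_neg h, dif_neg h, mul_zero]

/-- `F₀(g) = φ(r(gΓ)⁻¹ g)` -/
noncomputable def lift0 (φ : Additive Γ →+ ℂ) (g : SL(2, ℤ)) : ℂ :=
  ext0 Γ φ ((g : SL(2, ℤ) ⧸ Γ).out⁻¹ * g)

theorem out_inv_mul_mem (g : SL(2, ℤ)) : (g : SL(2, ℤ) ⧸ Γ).out⁻¹ * g ∈ Γ := by
  rw [← QuotientGroup.eq]; exact QuotientGroup.out_eq' _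

theorem lift0_mul_right (φ : Additive Γ →+ ℂ) (g : SL(2, ℤ)) {γ : SL(2, ℤ)} (hγ : γ ∈ Γ) :
    lift0 Γ φ (g * γ) = lift0 Γ φ g + ext0 Γ φ γ := by
  unfold lift0
  rw [QuotientGroup.mk_mul_of_mem g hγ, ← mul_assoc, ext0_mul Γ φ (out_inv_mul_mem Γ g) hγ]

theorem lift0_add (φ ψ : Additive Γ →+ ℂ) (g : SL(2, ℤ)) :
    lift0 Γ (φ + ψ) g = lift0 Γ φ g + lift0 Γ ψ g := ext0_add Γ φ ψ _

theorem lift0_smul (c : ℂ) (φ : Additive Γ →+ ℂ) (g : SL(2, ℤ)) :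
    lift0 Γ (c • φ) g = c * lift0 Γ φ g := ext0_smul Γ c φ _

/-- the average of `F₀` over left translations by `T^j`, `j < m`. -/
noncomputable def liftT (m : ℕ) (φ : Additive Γ →+ ℂ) (g : SL(2, ℤ)) : ℂ :=
  (m : ℂ)⁻¹ * ∑ j ∈ Finset.range m, lift0 Γ φ (T ^ j * g)

theorem liftT_add (m : ℕ) (φ ψ : Additive Γ →+ ℂ) (g : SL(2, ℤ)) :
    liftT Γ m (φ + ψ) g = liftT Γ m φ g + liftT Γ m ψ g := by
  unfold liftT
  simp only [lift0_add, Finset.sum_add_distrib, mul_add]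

theorem liftT_smul (m : ℕ) (c : ℂ) (φ : Additive Γ →+ ℂ) (g : SL(2, ℤ)) :
    liftT Γ m (c • φ) g = c * liftT Γ m φ g := by
  unfold liftT
  simp only [lift0_smul, ← Finset.mul_sum]
  ring

theorem liftT_mul_right {m : ℕ} (hm : m ≠ 0) (φ : Additive Γ →+ ℂ) (g : SL(2, ℤ))
    {γ : SL(2, ℤ)} (hγ : γ ∈ Γ) :
    liftT Γ m φ (g * γ) = liftT Γ m φ g + ext0 Γ φ γ := by
  unfold liftT
  have hm' : (m : ℂ) ≠ 0 := Nat.cast_ne_zero.mpr hm
  simp only [← mul_assoc, lift0_mul_right Γ φ _ hγ, Finset.sum_add_distrib, Finset.sum_const,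
    Finset.card_range, nsmul_eq_mul]
  field_simp

theorem trace_conj_T_pow (m : ℕ) (g : SL(2, ℤ)) :
    ((g⁻¹ * T ^ m * g : SL(2, ℤ)) : Matrix (Fin 2) (Fin 2) ℤ).trace = 2 := by
  rw [Matrix.SpecialLinearGroup.coe_mul, Matrix.trace_mul_comm,
    ← Matrix.SpecialLinearGroup.coe_mul, mul_inv_cancel_left, ← zpow_natCast, coe_T_zpow,
    Matrix.trace_fin_two_of]
  norm_num

theorem liftT_T {m : ℕ} (hTm : ∀ g : SL(2, ℤ), g⁻¹ * T ^ m * g ∈ Γ)
    (φ : Additive Γ →+ ℂ) (hφ : IsParabolicHom Γ φ) (g : SL(2, ℤ)) :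
    liftT Γ m φ (T * g) = liftT Γ m φ g := by
  unfold liftT
  congr 1
  have h1 : ∀ j : ℕ, T ^ j * (T * g) = T ^ (j + 1) * g := by
    intro j; rw [pow_succ, mul_assoc]
  simp only [h1]
  have h2 := Finset.sum_range_succ (fun j => lift0 Γ φ (T ^ j * g)) m
  have h3 := Finset.sum_range_succ' (fun j => lift0 Γ φ (T ^ j * g)) m
  have h4 : lift0 Γ φ (T ^ m * g) = lift0 Γ φ (T ^ 0 * g) := by
    have e : T ^ m * g = g * (g⁻¹ * T ^ m * g) := by group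
    rw [e, lift0_mul_right Γ φ g (hTm g), ext0_of_mem Γ φ (hTm g), pow_zero, one_mul]
    have := hφ ⟨_, hTm g⟩ (by
      show ((g⁻¹ * T ^ m * g : SL(2, ℤ)) : Matrix (Fin 2) (Fin 2) ℤ).trace ^ 2 = 4
      rw [trace_conj_T_pow]; norm_num)
    rw [this, add_zero]
  rw [h2, h4] at h3
  exact (add_right_cancel h3).symm

/-- The coset space. -/
abbrev CosetX : Type := SL(2, ℤ) ⧸ Γ

/-- The function `F = F_φ + w ∘ π` on `SL(2, ℤ)` attached to a pair `(φ, w)`. -/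
noncomputable def bigF (m : ℕ) (p : (Additive Γ →+ ℂ) × (CycOrb T (CosetX Γ) → ℂ))
    (g : SL(2, ℤ)) : ℂ :=
  liftT Γ m p.1 g + p.2 (cycProj T (g : CosetX Γ))

theorem bigF_add (m : ℕ) (p q : (Additive Γ →+ ℂ) × (CycOrb T (CosetX Γ) → ℂ))
    (g : SL(2, ℤ)) : bigF Γ m (p + q) g = bigF Γ m p g + bigF Γ m q g := by
  unfold bigF
  rw [Prod.fst_add, Prod.snd_add, liftT_add, Pi.add_apply]
  ring

theorem bigF_smul (m : ℕ) (c : ℂ) (p : (Additive Γ →+ ℂ) × (CycOrb T (CosetX Γ) → ℂ))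
    (g : SL(2, ℤ)) : bigF Γ m (c • p) g = c * bigF Γ m p g := by
  unfold bigF
  rw [Prod.smul_fst, Prod.smul_snd, liftT_smul, Pi.smul_apply, smul_eq_mul]
  ring

theorem bigF_T {m : ℕ} (hTm : ∀ g : SL(2, ℤ), g⁻¹ * T ^ m * g ∈ Γ)
    (p : (Additive Γ →+ ℂ) × (CycOrb T (CosetX Γ) → ℂ)) (hφ : IsParabolicHom Γ p.1)
    (g : SL(2, ℤ)) : bigF Γ m p (T * g) = bigF Γ m p g := by
  unfold bigF
  rw [liftT_T Γ hTm p.1 hφ g]
  have : ((T * g : SL(2, ℤ)) : CosetX Γ) = T • (g : CosetX Γ) := rfl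
  rw [this, cycProj_smul]

theorem bigF_mul_right {m : ℕ} (hm : m ≠ 0)
    (p : (Additive Γ →+ ℂ) × (CycOrb T (CosetX Γ) → ℂ)) (g : SL(2, ℤ))
    {γ : SL(2, ℤ)} (hγ : γ ∈ Γ) :
    bigF Γ m p (g * γ) = bigF Γ m p g + ext0 Γ p.1 γ := by
  unfold bigF
  rw [liftT_mul_right Γ hm p.1 g hγ, QuotientGroup.mk_mul_of_mem g hγ]
  ring

/-- descent: differences of left translates only depend on the coset. -/
theorem descent_out (F : SL(2, ℤ) → ℂ) (e : SL(2, ℤ) → ℂ)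
    (hF : ∀ (g : SL(2, ℤ)) {γ : SL(2, ℤ)}, γ ∈ Γ → F (g * γ) = F g + e γ)
    (h g : SL(2, ℤ)) :
    F (h * (g : CosetX Γ).out) - F ((g : CosetX Γ).out) = F (h * g) - F g := by
  have hmem : g⁻¹ * (g : CosetX Γ).out ∈ Γ := by
    rw [← QuotientGroup.eq]; exact (QuotientGroup.out_eq' _).symm
  have e1 : (g : CosetX Γ).out = g * (g⁻¹ * (g : CosetX Γ).out) := by group
  rw [e1, ← mul_assoc h, hF (h * g) hmem, hF g hmem]
  ring

theorem neg_one_smul_coset (hneg : -1 ∈ Γ) (x : CosetX Γ) (g : SL(2, ℤ)) (hg : g = -1) :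
    g • x = x := by
  subst hg
  obtain ⟨h, rfl⟩ := QuotientGroup.mk_surjective x
  show (((-1 : SL(2, ℤ)) * h : SL(2, ℤ)) : CosetX Γ) = (h : CosetX Γ)
  have : (-1 : SL(2, ℤ)) * h = h * (-1) := by simp
  rw [this, QuotientGroup.mk_mul_of_mem h hneg]

theorem S_mul_S : (S * S : SL(2, ℤ)) = -1 := by decide

theorem TS_cube : ((T * S) * ((T * S) * (T * S)) : SL(2, ℤ)) = -1 := by decide

theorem S_smul_S_smul (hneg : -1 ∈ Γ) (x : CosetX Γ) : S • S • x = x := by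
  rw [← mul_smul]
  exact neg_one_smul_coset Γ hneg x _ S_mul_S

theorem TS_smul_cube (hneg : -1 ∈ Γ) (x : CosetX Γ) : (T * S) • (T * S) • (T * S) • x = x := by
  rw [← mul_smul, ← mul_smul]
  exact neg_one_smul_coset Γ hneg x _ (by rw [mul_assoc]; exact TS_cube)

theorem ext0_neg_one (hneg : -1 ∈ Γ) (φ : Additive Γ →+ ℂ) : ext0 Γ φ (-1) = 0 := by
  have h := ext0_mul Γ φ hneg hneg
  have h1 : ((-1 : SL(2, ℤ)) * (-1)) = 1 := by simp
  have h2 : ext0 Γ φ 1 = 0 := by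
    rw [ext0_of_mem Γ φ Γ.one_mem]
    exact map_zero φ
  rw [h1, h2] at h
  have h3 : (2 : ℂ) * ext0 Γ φ (-1) = 0 := by linear_combination -h
  simpa using h3

/-- The linear map `Θ`. -/
noncomputable def thetaMap (m : ℕ) :
    ((Additive Γ →+ ℂ) × (CycOrb T (CosetX Γ) → ℂ)) →ₗ[ℂ] ((CosetX Γ → ℂ) × ℂ) where
  toFun p := (fun x => bigF Γ m p (S * x.out) - bigF Γ m p x.out, bigF Γ m p 1)
  map_add' p q := by
    ext x
    · simp only [bigF_add, Prod.fst_add, Pi.add_apply]; ring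
    · simp only [bigF_add, Prod.snd_add]
  map_smul' c p := by
    ext x
    · simp only [bigF_smul, Prod.smul_fst, Pi.smul_apply, smul_eq_mul, RingHom.id_apply]; ring
    · simp only [bigF_smul, Prod.smul_snd, smul_eq_mul, RingHom.id_apply]

theorem thetaMap_fst_mk {m : ℕ} (hm : m ≠ 0)
    (p : (Additive Γ →+ ℂ) × (CycOrb T (CosetX Γ) → ℂ)) (g : SL(2, ℤ)) :
    (thetaMap Γ m p).1 (g : CosetX Γ) = bigF Γ m p (S * g) - bigF Γ m p g :=
  descent_out Γ (bigF Γ m p) (ext0 Γ p.1) (fun g _ hγ => bigF_mul_right Γ hm p g hγ) S g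

theorem thetaMap_fst_mk' {m : ℕ} (hm : m ≠ 0) (hTm : ∀ g : SL(2, ℤ), g⁻¹ * T ^ m * g ∈ Γ)
    (p : (Additive Γ →+ ℂ) × (CycOrb T (CosetX Γ) → ℂ)) (hφ : IsParabolicHom Γ p.1)
    (g : SL(2, ℤ)) :
    (thetaMap Γ m p).1 (g : CosetX Γ) = bigF Γ m p ((T * S) * g) - bigF Γ m p g := by
  rw [thetaMap_fst_mk Γ hm, mul_assoc, bigF_T Γ hTm p hφ]

theorem bigF_neg {m : ℕ} (hm : m ≠ 0) (hneg : -1 ∈ Γ)
    (p : (Additive Γ →+ ℂ) × (CycOrb T (CosetX Γ) → ℂ)) (g h : SL(2, ℤ)) (hh : h = -1) :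
    bigF Γ m p (h * g) = bigF Γ m p g := by
  subst hh
  have : (-1 : SL(2, ℤ)) * g = g * (-1) := by simp
  rw [this, bigF_mul_right Γ hm p g hneg, ext0_neg_one Γ hneg, add_zero]

theorem thetaMap_fst_mem_kerN2 {m : ℕ} (hm : m ≠ 0) (hneg : -1 ∈ Γ)
    (p : (Additive Γ →+ ℂ) × (CycOrb T (CosetX Γ) → ℂ)) :
    (thetaMap Γ m p).1 ∈ kerN2 S (CosetX Γ) := by
  intro x
  obtain ⟨g, rfl⟩ := QuotientGroup.mk_surjective x
  have : S • (g : CosetX Γ) = ((S * g : SL(2, ℤ)) : CosetX Γ) := rfl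
  rw [this, thetaMap_fst_mk Γ hm, thetaMap_fst_mk Γ hm, ← mul_assoc,
    bigF_neg Γ hm hneg p g _ S_mul_S]
  ring

theorem thetaMap_fst_mem_kerN3 {m : ℕ} (hm : m ≠ 0) (hTm : ∀ g : SL(2, ℤ), g⁻¹ * T ^ m * g ∈ Γ)
    (hneg : -1 ∈ Γ)
    (p : (Additive Γ →+ ℂ) × (CycOrb T (CosetX Γ) → ℂ)) (hφ : IsParabolicHom Γ p.1) :
    (thetaMap Γ m p).1 ∈ kerN3 (T * S) (CosetX Γ) := by
  intro x
  obtain ⟨g, rfl⟩ := QuotientGroup.mk_surjective x
  have e1 : (T * S) • (g : CosetX Γ) = (((T * S) * g : SL(2, ℤ)) : CosetX Γ) := rfl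
  have e2 : (T * S) • (((T * S) * g : SL(2, ℤ)) : CosetX Γ)
      = (((T * S) * ((T * S) * g) : SL(2, ℤ)) : CosetX Γ) := rfl
  rw [e1, e2, thetaMap_fst_mk' Γ hm hTm p hφ, thetaMap_fst_mk' Γ hm hTm p hφ,
    thetaMap_fst_mk' Γ hm hTm p hφ]
  have e3 : (T * S) * ((T * S) * ((T * S) * g)) = ((T * S) * ((T * S) * (T * S))) * g := by
    group
  rw [e3, bigF_neg Γ hm hneg p g _ TS_cube]
  ring

theorem thetaMap_eq_zero {m : ℕ} (hm : m ≠ 0) (hTm : ∀ g : SL(2, ℤ), g⁻¹ * T ^ m * g ∈ Γ)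
    (p : (Additive Γ →+ ℂ) × (CycOrb T (CosetX Γ) → ℂ)) (hφ : IsParabolicHom Γ p.1)
    (h0 : thetaMap Γ m p = 0) : p = 0 := by
  have hS : ∀ g : SL(2, ℤ), bigF Γ m p (S * g) = bigF Γ m p g := by
    intro g
    have h1 := thetaMap_fst_mk Γ hm p g
    rw [h0] at h1
    have h2 : (0 : ℂ) = bigF Γ m p (S * g) - bigF Γ m p g := h1
    linear_combination -h2
  have hT : ∀ g : SL(2, ℤ), bigF Γ m p (T * g) = bigF Γ m p g := bigF_T Γ hTm p hφ
  have h1 : bigF Γ m p 1 = 0 := by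
    have : (thetaMap Γ m p).2 = bigF Γ m p 1 := rfl
    rw [← this, h0]; rfl
  let H : Subgroup SL(2, ℤ) :=
    { carrier := {h | ∀ g, bigF Γ m p (h * g) = bigF Γ m p g}
      mul_mem' := by
        intro a b ha hb g
        rw [mul_assoc, ha, hb]
      one_mem' := by intro g; rw [one_mul]
      inv_mem' := by
        intro a ha g
        have := ha (a⁻¹ * g)
        rw [mul_inv_cancel_left] at this
        exact this.symm }
  have hH : H = ⊤ := by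
    rw [eq_top_iff, ← SpecialLinearGroup.SL2Z_generators, Subgroup.closure_le]
    intro g hg
    rcases hg with rfl | hg
    · exact hS
    · rw [Set.mem_singleton_iff] at hg
      subst hg
      exact hT
  have hF : ∀ g : SL(2, ℤ), bigF Γ m p g = 0 := by
    intro g
    have hg : g ∈ H := by rw [hH]; trivial
    have := hg 1
    rw [mul_one] at this
    rw [this, h1]
  have hφ0 : p.1 = 0 := by
    refine AddMonoidHom.ext fun γ => ?_
    have h2 := bigF_mul_right Γ hm p 1 (Additive.toMul γ).2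
    rw [hF, hF, zero_add, ext0_of_mem Γ p.1 (Additive.toMul γ).2] at h2
    exact h2.symm
  have hw0 : p.2 = 0 := by
    funext ω
    obtain ⟨x, rfl⟩ := cycProj_surjective (X := CosetX Γ) T ω
    obtain ⟨g, rfl⟩ := QuotientGroup.mk_surjective x
    have h2 := hF g
    unfold bigF at h2
    rw [hφ0] at h2
    have h3 : liftT Γ m 0 g = 0 := by
      have := liftT_smul Γ m 0 0 g
      rw [zero_smul, zero_mul] at this
      exact this
    rw [h3, zero_add] at h2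
    exact h2
  exact Prod.ext hφ0 hw0

theorem exists_pow_T_conj_mem [Γ.FiniteIndex] :
    ∃ m : ℕ, m ≠ 0 ∧ ∀ g : SL(2, ℤ), g⁻¹ * T ^ m * g ∈ Γ := by
  refine ⟨Γ.normalCore.index, Subgroup.FiniteIndex.index_ne_zero, fun g => ?_⟩
  have h1 : T ^ Γ.normalCore.index ∈ Γ.normalCore := Subgroup.pow_index_mem _ T
  have hn : Γ.normalCore.Normal := inferInstance
  have h2 := hn.conj_mem _ h1 g⁻¹
  rw [inv_inv] at h2
  exact Γ.normalCore_le h2

/-- The key injection: parabolic homs together with functions on the `T`-orbits embed into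
`(kerN2 S ⊓ kerN3 (T * S)) × ℂ`. -/
theorem exists_injective_parabolic [Γ.FiniteIndex] (hneg : -1 ∈ Γ) :
    ∃ L : (parabolicHoms ℂ Γ ℂ × (CycOrb T (CosetX Γ) → ℂ)) →ₗ[ℂ]
        ((kerN2 S (CosetX Γ) ⊓ kerN3 (T * S) (CosetX Γ) : Submodule ℂ (CosetX Γ → ℂ)) × ℂ),
      Function.Injective L := by
  obtain ⟨m, hm, hTm⟩ := exists_pow_T_conj_mem Γ
  let θ' : (parabolicHoms ℂ Γ ℂ × (CycOrb T (CosetX Γ) → ℂ)) →ₗ[ℂ] ((CosetX Γ → ℂ) × ℂ) :=
    (thetaMap Γ m).comp (LinearMap.prodMap (parabolicHoms ℂ Γ ℂ).subtype LinearMap.id)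
  have hθ' : ∀ p, θ' p = thetaMap Γ m ((p.1 : Additive Γ →+ ℂ), p.2) := fun p => rfl
  have hmem : ∀ p, ((LinearMap.fst ℂ (CosetX Γ → ℂ) ℂ).comp θ') p ∈
      (kerN2 S (CosetX Γ) ⊓ kerN3 (T * S) (CosetX Γ) : Submodule ℂ (CosetX Γ → ℂ)) := by
    intro p
    refine ⟨?_, ?_⟩
    · exact thetaMap_fst_mem_kerN2 Γ hm hneg _
    · exact thetaMap_fst_mem_kerN3 Γ hm hTm hneg _ p.1.2
  refine ⟨LinearMap.prod (LinearMap.codRestrict _ _ hmem)
    ((LinearMap.snd ℂ (CosetX Γ → ℂ) ℂ).comp θ'), ?_⟩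
  rw [← LinearMap.ker_eq_bot, LinearMap.ker_eq_bot']
  intro p hp
  have h1 : (θ' p).1 = 0 := congrArg (fun q => ((q.1 : _) : CosetX Γ → ℂ)) hp
  have h2 : (θ' p).2 = 0 := congrArg Prod.snd hp
  have h3 : thetaMap Γ m ((p.1 : Additive Γ →+ ℂ), p.2) = 0 := Prod.ext h1 h2
  have h4 := thetaMap_eq_zero Γ hm hTm ((p.1 : Additive Γ →+ ℂ), p.2) p.1.2 h3
  have h5 : (p.1 : Additive Γ →+ ℂ) = 0 := congrArg Prod.fst h4
  have h6 : p.2 = 0 := congrArg Prod.snd h4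
  exact Prod.ext (Subtype.ext h5) h6

/-- The space of parabolic homomorphisms of a finite index subgroup of `SL(2, ℤ)` containing
`-1` is finite dimensional. -/
theorem finite_parabolicHoms [Γ.FiniteIndex] (hneg : -1 ∈ Γ) :
    Module.Finite ℂ (parabolicHoms ℂ Γ ℂ) := by
  obtain ⟨L, hL⟩ := exists_injective_parabolic Γ hneg
  have hinj : Function.Injective
      (L.comp (LinearMap.inl ℂ (parabolicHoms ℂ Γ ℂ) (CycOrb T (CosetX Γ) → ℂ))) :=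
    hL.comp LinearMap.inl_injective
  exact Module.Finite.of_injective _ hinj

theorem closure_S_TS : Subgroup.closure {S, T * S} = (⊤ : Subgroup SL(2, ℤ)) := by
  rw [eq_top_iff, ← SpecialLinearGroup.SL2Z_generators, Subgroup.closure_le]
  intro g hg
  rcases hg with rfl | hg
  · exact Subgroup.subset_closure (Set.mem_insert _ _)
  · rw [Set.mem_singleton_iff] at hg
    subst hg
    have hS : S ∈ Subgroup.closure {S, T * S} := Subgroup.subset_closure (Set.mem_insert _ _)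
    have hTS : T * S ∈ Subgroup.closure {S, T * S} :=
      Subgroup.subset_closure (Set.mem_insert_of_mem _ rfl)
    have := Subgroup.mul_mem _ hTS (Subgroup.inv_mem _ hS)
    rwa [mul_inv_cancel_right] at this

/-- **Upper bound for parabolic cohomology.** For a finite index subgroup `Γ` of `SL(2, ℤ)`
containing `-1`, with `X = SL(2, ℤ) ⧸ Γ`:
`dim Hom_par(Γ, ℂ) + #(X/⟨S⟩) + #(X/⟨S * T⟩) + #(X/⟨T⟩) ≤ [SL(2, ℤ) : Γ] + 2`. -/
theorem finrank_parabolicHoms_add_le [Γ.FiniteIndex] (hneg : -1 ∈ Γ) :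
    finrank ℂ (parabolicHoms ℂ Γ ℂ)
      + Nat.card (MulAction.orbitRel.Quotient (Subgroup.zpowers S) (SL(2, ℤ) ⧸ Γ))
      + Nat.card (MulAction.orbitRel.Quotient (Subgroup.zpowers (S * T)) (SL(2, ℤ) ⧸ Γ))
      + Nat.card (MulAction.orbitRel.Quotient (Subgroup.zpowers T) (SL(2, ℤ) ⧸ Γ))
      ≤ Γ.index + 2 := by
  classical
  have hfin := finite_parabolicHoms Γ hneg
  obtain ⟨L, hL⟩ := exists_injective_parabolic Γ hneg
  have := Fintype.ofFinite (CycOrb T (CosetX Γ))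
  have h1 := LinearMap.finrank_le_finrank_of_injective hL
  rw [Module.finrank_prod, Module.finrank_prod, Module.finrank_fintype_fun_eq_card,
    Module.finrank_self, ← Nat.card_eq_fintype_card] at h1
  have h2 := Submodule.finrank_sup_add_finrank_inf_eq (kerN2 S (CosetX Γ))
    (kerN3 (T * S) (CosetX Γ))
  have h3 := finrank_kerN2_add_card_le (X := CosetX Γ) S
  have h4 := finrank_kerN3_conj_add_card_le (X := CosetX Γ) S T
  have h5 := card_le_finrank_sup_add_one (X := CosetX Γ) S (T * S) closure_S_TS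
    (S_smul_S_smul Γ hneg) (TS_smul_cube Γ hneg)
  have h6 : Γ.index = Nat.card (CosetX Γ) := Subgroup.index_eq_card Γ
  rw [h6]
  change finrank ℂ (parabolicHoms ℂ Γ ℂ) + Nat.card (CycOrb S (CosetX Γ))
    + Nat.card (CycOrb (S * T) (CosetX Γ)) + Nat.card (CycOrb T (CosetX Γ))
    ≤ Nat.card (CosetX Γ) + 2
  omega

end Fermat.Agent.S21
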