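import Mathlib

/-!
# Orbit counting for elements acting with order dividing 2 or 3

Pure counting lemmas (team S21, block 5a):

* `Fermat.Agent.S21.two_mul_card_orbits`: if `g • g • x = x` for all `x`, then
  `2 * #(orbits of ⟨g⟩) = |X| + #Fix(g)`.
* `Fermat.Agent.S21.three_mul_card_orbits`: if `g • g • g • x = x` for all `x`, then
  `3 * #(orbits of ⟨g⟩) = |X| + 2 * #Fix(g)`.
-/

namespace Fermat.Agent.S21

namespace PermBound

variable {G X : Type*} [Group G] [MulAction G X]

theorem zpow_smul_two (g : G) (h : ∀ x : X, g • g • x = x) (k : ℤ) :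
    ∀ x : X, g ^ k • x = x ∨ g ^ k • x = g • x := by
  have hinv : ∀ x : X, g⁻¹ • x = g • x := fun x => by rw [inv_smul_eq_iff, h]
  induction k using Int.induction_on with
  | zero => intro x; left; simp
  | succ n ih =>
    intro x
    rw [zpow_add_one, mul_smul]
    rcases ih (g • x) with h1 | h1
    · right; exact h1
    · left; rw [h1, h]
  | pred n ih =>
    intro x
    rw [zpow_sub_one, mul_smul, hinv]
    rcases ih (g • x) with h1 | h1
    · right; exact h1
    · left; rw [h1, h]

theorem zpow_smul_three (g : G) (h : ∀ x : X, g • g • g • x = x) (k : ℤ) :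
    ∀ x : X, g ^ k • x = x ∨ g ^ k • x = g • x ∨ g ^ k • x = g • g • x := by
  have hinv : ∀ x : X, g⁻¹ • x = g • g • x := fun x => by rw [inv_smul_eq_iff, h]
  induction k using Int.induction_on with
  | zero => intro x; left; simp
  | succ n ih =>
    intro x
    rw [zpow_add_one, mul_smul]
    rcases ih (g • x) with h1 | h1 | h1
    · right; left; exact h1
    · right; right; exact h1
    · left; rw [h1, h]
  | pred n ih =>
    intro x
    rw [zpow_sub_one, mul_smul, hinv]
    rcases ih (g • g • x) with h1 | h1 | h1
    · right; right; exact h1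
    · left; rw [h1, h]
    · right; left; rw [h1, h]

theorem mk_eq_mk_iff_two (g : G) (h : ∀ x : X, g • g • x = x) (x y : X) :
    (Quotient.mk'' y : MulAction.orbitRel.Quotient (Subgroup.zpowers g) X) = Quotient.mk'' x ↔
      y = x ∨ y = g • x := by
  rw [Quotient.eq'']
  change y ∈ MulAction.orbit (Subgroup.zpowers g) x ↔ _
  rw [MulAction.mem_orbit_iff]
  constructor
  · rintro ⟨⟨a, ha⟩, rfl⟩
    obtain ⟨k, rfl⟩ := Subgroup.mem_zpowers_iff.mp ha
    exact zpow_smul_two g h k x
  · rintro (rfl | rfl)
    · exact ⟨1, one_smul _ _⟩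
    · exact ⟨⟨g, Subgroup.mem_zpowers g⟩, rfl⟩

theorem mk_eq_mk_iff_three (g : G) (h : ∀ x : X, g • g • g • x = x) (x y : X) :
    (Quotient.mk'' y : MulAction.orbitRel.Quotient (Subgroup.zpowers g) X) = Quotient.mk'' x ↔
      y = x ∨ y = g • x ∨ y = g • g • x := by
  rw [Quotient.eq'']
  change y ∈ MulAction.orbit (Subgroup.zpowers g) x ↔ _
  rw [MulAction.mem_orbit_iff]
  constructor
  · rintro ⟨⟨a, ha⟩, rfl⟩
    obtain ⟨k, rfl⟩ := Subgroup.mem_zpowers_iff.mp ha
    exact zpow_smul_three g h k x
  · rintro (rfl | rfl | rfl)
    · exact ⟨1, one_smul _ _⟩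
    · exact ⟨⟨g, Subgroup.mem_zpowers g⟩, rfl⟩
    · exact ⟨⟨g * g, Subgroup.mul_mem _ (Subgroup.mem_zpowers g) (Subgroup.mem_zpowers g)⟩,
        mul_smul g g x⟩

end PermBound

open PermBound

variable {G X : Type*} [Group G] [MulAction G X]

/-- If `g` acts as an involution on the finite set `X`, then
`2 * #(⟨g⟩-orbits) = |X| + #Fix(g)`. -/
theorem two_mul_card_orbits [Finite X] (g : G) (h : ∀ x : X, g • g • x = x) :
    2 * Nat.card (MulAction.orbitRel.Quotient (Subgroup.zpowers g) X) =
      Nat.card X + Nat.card (MulAction.fixedBy X g) := by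
  classical
  have : Fintype X := Fintype.ofFinite X
  have : Fintype (MulAction.orbitRel.Quotient (Subgroup.zpowers g) X) := Fintype.ofFinite _
  let π : X → MulAction.orbitRel.Quotient (Subgroup.zpowers g) X := fun x => Quotient.mk'' x
  have hX : Nat.card X = ∑ ω : MulAction.orbitRel.Quotient (Subgroup.zpowers g) X,
      (Finset.univ.filter (fun x => π x = ω)).card := by
    rw [Nat.card_eq_fintype_card, ← Finset.card_univ]
    exact Finset.card_eq_sum_card_fiberwise (fun x _ => Finset.mem_univ _)
  have hF : Nat.card (MulAction.fixedBy X g) =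
      ∑ ω : MulAction.orbitRel.Quotient (Subgroup.zpowers g) X,
        (Finset.univ.filter (fun x => g • x = x ∧ π x = ω)).card := by
    have h1 : Nat.card (MulAction.fixedBy X g) = (Finset.univ.filter (fun x : X => g • x = x)).card :=
      Nat.subtype_card _ (by simp [MulAction.mem_fixedBy])
    rw [h1, Finset.card_eq_sum_card_fiberwise (f := π) (t := Finset.univ)
      (fun x _ => Finset.mem_univ _)]
    refine Finset.sum_congr rfl fun ω _ => ?_
    rw [Finset.filter_filter]
  rw [hX, hF, ← Finset.sum_add_distrib, Nat.card_eq_fintype_card, ← Finset.card_univ, mul_comm,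
    ← smul_eq_mul, ← Finset.sum_const]
  refine Finset.sum_congr rfl fun ω _ => ?_
  induction ω using Quotient.inductionOn' with
  | h x =>
    have hfib : ∀ y, π y = Quotient.mk'' x ↔ y = x ∨ y = g • x := fun y =>
      mk_eq_mk_iff_two g h x y
    by_cases hx : g • x = x
    · have e1 : Finset.univ.filter (fun y => π y = Quotient.mk'' x) = {x} := by
        ext y; simp [hfib, hx]
      have e2 : Finset.univ.filter (fun y => g • y = y ∧ π y = Quotient.mk'' x) = {x} := by
        ext y
        simp only [Finset.mem_filter, Finset.mem_univ, true_and, hfib, hx, or_self,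
          Finset.mem_singleton]
        constructor
        · rintro ⟨_, rfl⟩; rfl
        · rintro rfl; exact ⟨hx, rfl⟩
      rw [e1, e2]; simp
    · have e1 : Finset.univ.filter (fun y => π y = Quotient.mk'' x) = {x, g • x} := by
        ext y; simp [hfib]
      have e2 : Finset.univ.filter (fun y => g • y = y ∧ π y = Quotient.mk'' x) = ∅ := by
        ext y
        simp only [Finset.mem_filter, Finset.mem_univ, true_and, hfib, Finset.notMem_empty,
          iff_false, not_and]
        rintro hy (rfl | rfl)
        · exact hx hy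
        · rw [h] at hy; exact hx hy.symm
      rw [e1, e2, Finset.card_pair (Ne.symm hx)]; simp

/-- If `g` acts with order dividing `3` on the finite set `X`, then
`3 * #(⟨g⟩-orbits) = |X| + 2 * #Fix(g)`. -/
theorem three_mul_card_orbits [Finite X] (g : G) (h : ∀ x : X, g • g • g • x = x) :
    3 * Nat.card (MulAction.orbitRel.Quotient (Subgroup.zpowers g) X) =
      Nat.card X + 2 * Nat.card (MulAction.fixedBy X g) := by
  classical
  have : Fintype X := Fintype.ofFinite X
  have : Fintype (MulAction.orbitRel.Quotient (Subgroup.zpowers g) X) := Fintype.ofFinite _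
  let π : X → MulAction.orbitRel.Quotient (Subgroup.zpowers g) X := fun x => Quotient.mk'' x
  have hX : Nat.card X = ∑ ω : MulAction.orbitRel.Quotient (Subgroup.zpowers g) X,
      (Finset.univ.filter (fun x => π x = ω)).card := by
    rw [Nat.card_eq_fintype_card, ← Finset.card_univ]
    exact Finset.card_eq_sum_card_fiberwise (fun x _ => Finset.mem_univ _)
  have hF : Nat.card (MulAction.fixedBy X g) =
      ∑ ω : MulAction.orbitRel.Quotient (Subgroup.zpowers g) X,
        (Finset.univ.filter (fun x => g • x = x ∧ π x = ω)).card := by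
    have h1 : Nat.card (MulAction.fixedBy X g) = (Finset.univ.filter (fun x : X => g • x = x)).card :=
      Nat.subtype_card _ (by simp [MulAction.mem_fixedBy])
    rw [h1, Finset.card_eq_sum_card_fiberwise (f := π) (t := Finset.univ)
      (fun x _ => Finset.mem_univ _)]
    refine Finset.sum_congr rfl fun ω _ => ?_
    rw [Finset.filter_filter]
  rw [hX, hF, Finset.mul_sum, ← Finset.sum_add_distrib, Nat.card_eq_fintype_card,
    ← Finset.card_univ, mul_comm, ← smul_eq_mul, ← Finset.sum_const]
  refine Finset.sum_congr rfl fun ω _ => ?_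
  induction ω using Quotient.inductionOn' with
  | h x =>
    have hfib : ∀ y, π y = Quotient.mk'' x ↔ y = x ∨ y = g • x ∨ y = g • g • x := fun y =>
      mk_eq_mk_iff_three g h x y
    by_cases hx : g • x = x
    · have e1 : Finset.univ.filter (fun y => π y = Quotient.mk'' x) = {x} := by
        ext y; simp [hfib, hx]
      have e2 : Finset.univ.filter (fun y => g • y = y ∧ π y = Quotient.mk'' x) = {x} := by
        ext y
        simp only [Finset.mem_filter, Finset.mem_univ, true_and, hfib, hx, or_self,
          Finset.mem_singleton]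
        constructor
        · rintro ⟨_, rfl⟩; rfl
        · rintro rfl; exact ⟨hx, rfl⟩
      rw [e1, e2]; simp
    · have hx1 : g • g • x ≠ g • x := fun hh => hx ((smul_left_cancel_iff g).mp hh)
      have hx2 : g • g • x ≠ x := fun hh => hx (by
        have := congrArg (g • ·) hh
        simp only [h] at this
        exact this.symm)
      have e1 : Finset.univ.filter (fun y => π y = Quotient.mk'' x) = {x, g • x, g • g • x} := by
        ext y; simp [hfib]
      have e2 : Finset.univ.filter (fun y => g • y = y ∧ π y = Quotient.mk'' x) = ∅ := by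
        ext y
        simp only [Finset.mem_filter, Finset.mem_univ, true_and, hfib, Finset.notMem_empty,
          iff_false, not_and]
        rintro hy (rfl | rfl | rfl)
        · exact hx hy
        · exact hx1 hy
        · rw [h] at hy; exact hx2 hy.symm
      have hc : ({x, g • x, g • g • x} : Finset X).card = 3 := by
        rw [Finset.card_insert_of_notMem, Finset.card_pair (Ne.symm hx1)]
        simp only [Finset.mem_insert, Finset.mem_singleton, not_or]
        exact ⟨Ne.symm hx, Ne.symm hx2⟩
      rw [e1, e2, hc]; simp

end Fermat.Agent.S21
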