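import Mathlib
import Fermat.Agent.S21.PermBound

/-!
# Orbit counts for `S` and `S * T` on `SL(2, ℤ) ⧸ Γ` when `-1 ∈ Γ`

Specialisation of `PermBound.lean` (team S21, block 5a).
-/

namespace Fermat.Agent.S21

open scoped MatrixGroups
open ModularGroup

namespace SL2Orbits

theorem S_mul_S : (S * S : SL(2, ℤ)) = -1 := by decide

theorem ST_pow_three : ((S * T) * (S * T) * (S * T) : SL(2, ℤ)) = -1 := by decide

theorem neg_one_smul_coset (Γ : Subgroup SL(2, ℤ)) (hneg : (-1 : SL(2, ℤ)) ∈ Γ)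
    (x : SL(2, ℤ) ⧸ Γ) : (-1 : SL(2, ℤ)) • x = x := by
  induction x using QuotientGroup.induction_on with
  | H g =>
    rw [MulAction.Quotient.smul_mk, QuotientGroup.eq]
    have : ((-1 : SL(2, ℤ)) • g)⁻¹ * g = -1 := by
      rw [smul_eq_mul, neg_one_mul, inv_neg, neg_mul, inv_mul_cancel]
    rw [this]; exact hneg

theorem S_smul_S_smul (Γ : Subgroup SL(2, ℤ)) (hneg : (-1 : SL(2, ℤ)) ∈ Γ)
    (x : SL(2, ℤ) ⧸ Γ) : S • S • x = x := by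
  rw [← mul_smul, S_mul_S, neg_one_smul_coset Γ hneg]

theorem ST_smul_ST_smul_ST_smul (Γ : Subgroup SL(2, ℤ)) (hneg : (-1 : SL(2, ℤ)) ∈ Γ)
    (x : SL(2, ℤ) ⧸ Γ) : (S * T) • (S * T) • (S * T) • x = x := by
  rw [← mul_smul, ← mul_smul, ST_pow_three, neg_one_smul_coset Γ hneg]

end SL2Orbits

open SL2Orbits

/-- `2 * #(⟨S⟩-orbits on SL(2,ℤ)⧸Γ) = [SL(2,ℤ) : Γ] + #Fix(S)` when `-1 ∈ Γ`. -/
theorem two_mul_card_orbits_S (Γ : Subgroup SL(2, ℤ)) [Γ.FiniteIndex]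
    (hneg : (-1 : SL(2, ℤ)) ∈ Γ) :
    2 * Nat.card (MulAction.orbitRel.Quotient (Subgroup.zpowers S) (SL(2, ℤ) ⧸ Γ)) =
      Nat.card (SL(2, ℤ) ⧸ Γ) + Nat.card (MulAction.fixedBy (SL(2, ℤ) ⧸ Γ) S) :=
  two_mul_card_orbits S (S_smul_S_smul Γ hneg)

/-- `3 * #(⟨S*T⟩-orbits on SL(2,ℤ)⧸Γ) = [SL(2,ℤ) : Γ] + 2 * #Fix(S*T)` when `-1 ∈ Γ`. -/
theorem three_mul_card_orbits_ST (Γ : Subgroup SL(2, ℤ)) [Γ.FiniteIndex]
    (hneg : (-1 : SL(2, ℤ)) ∈ Γ) :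
    3 * Nat.card (MulAction.orbitRel.Quotient (Subgroup.zpowers (S * T)) (SL(2, ℤ) ⧸ Γ)) =
      Nat.card (SL(2, ℤ) ⧸ Γ) + 2 * Nat.card (MulAction.fixedBy (SL(2, ℤ) ⧸ Γ) (S * T)) :=
  three_mul_card_orbits (S * T) (ST_smul_ST_smul_ST_smul Γ hneg)

end Fermat.Agent.S21
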