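import Mathlib
import Fermat.Prelude.Def_ModularCurve_PeriodMap
import Fermat.Prelude.Def_ModularCurve_GenusNumerics
import Fermat.Agent.S20.Cosets
import Fermat.Agent.S20.CosetsCusp
import Fermat.Agent.S21.SL2Orbits
import Fermat.Agent.S21.ParabolicBound

/-!
# `dim Hom_par(Γ₀(N), ℂ) ≤ 2 g(N)`

Wiring of the abstract bound (`ParabolicBound.lean`, `SL2Orbits.lean`) with the four coset counts
(`S20/Cosets.lean`, `S20/CosetsFixed.lean`, `S20/CosetsCusp.lean`).
-/

set_option autoImplicit false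

namespace Fermat.Agent.S21

open scoped MatrixGroups
open ModularCurve ModularCurve.Period ModularGroup Module CongruenceSubgroup

namespace Dim

theorem neg_one_mem_Gamma0 (N : ℕ) : (-1 : SL(2, ℤ)) ∈ Gamma0 N := by
  rw [Gamma0_mem]
  simp

/-- The integer form of the bound:
`6·dim + 6·c + 3·ν₂ + 4·ν₃ ≤ ψ(N) + 12`. -/
theorem six_mul_finrank_parabolicHoms_add_le (N : ℕ) [NeZero N] :
    6 * finrank ℂ (parabolicHoms ℂ (Gamma0 N) ℂ) + 6 * cuspCount N + 3 * nuTwo N
      + 4 * nuThree N ≤ dedekindPsi N + 12 := by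
  have h := finrank_parabolicHoms_add_le (Gamma0 N) (neg_one_mem_Gamma0 N)
  have h2 := two_mul_card_orbits_S (Gamma0 N) (neg_one_mem_Gamma0 N)
  have h3 := three_mul_card_orbits_ST (Gamma0 N) (neg_one_mem_Gamma0 N)
  rw [Subgroup.index_eq_card, Fermat.Agent.S20.card_Q, Fermat.Agent.S20.card_orbits_T] at h
  rw [Fermat.Agent.S20.card_Q, Fermat.Agent.S20.card_fixedBy_S] at h2
  rw [Fermat.Agent.S20.card_Q, Fermat.Agent.S20.card_fixedBy_ST] at h3
  omega

end Dim

/-- `Hom_par(Γ₀(N), ℂ)` is finite-dimensional. -/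
theorem finite_parabolicHoms_Gamma0 (N : ℕ) [NeZero N] :
    Module.Finite ℂ (parabolicHoms ℂ (Gamma0 N) ℂ) :=
  finite_parabolicHoms (Gamma0 N) (Dim.neg_one_mem_Gamma0 N)

/-- `dim Hom_par(Γ₀(N), ℂ) ≤ 2 g(N)` with `g(N)` the genus formula. -/
theorem finrank_parabolicHoms_Gamma0_le (N : ℕ) [NeZero N] :
    (finrank ℂ (parabolicHoms ℂ (Gamma0 N) ℂ) : ℚ) ≤ 2 * genusFormula N := by
  have h := Dim.six_mul_finrank_parabolicHoms_add_le N
  have h' : (6 * (finrank ℂ (parabolicHoms ℂ (Gamma0 N) ℂ) : ℚ) + 6 * (cuspCount N : ℚ)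
      + 3 * (nuTwo N : ℚ) + 4 * (nuThree N : ℚ)) ≤ (dedekindPsi N : ℚ) + 12 := by
    exact_mod_cast h
  unfold genusFormula
  linarith

/-- Variant against any natural number `g` with `(g : ℚ) = genusFormula N`
(e.g. `g = finrank ℂ (CuspForm (Gamma0 N) 2)` from S20). -/
theorem finrank_parabolicHoms_Gamma0_le_two_mul (N : ℕ) [NeZero N] (g : ℕ)
    (hg : (g : ℚ) = genusFormula N) :
    finrank ℂ (parabolicHoms ℂ (Gamma0 N) ℂ) ≤ 2 * g := by
  have h := finrank_parabolicHoms_Gamma0_le N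
  rw [← hg] at h
  exact_mod_cast h

/-- Alias (captain's requested name). -/
theorem neg_one_mem_Gamma0 (N : ℕ) : (-1 : SL(2, ℤ)) ∈ CongruenceSubgroup.Gamma0 N :=
  Dim.neg_one_mem_Gamma0 N

/-- Captain's requested shape (the hypothesis `hQ` is in fact `Fermat.Agent.S20.card_Q N` and is
not needed: see `finrank_parabolicHoms_Gamma0_le`). -/
theorem finrank_parabolicHoms_le_of_card (N : ℕ) [NeZero N]
    (hQ : Nat.card (SL(2, ℤ) ⧸ CongruenceSubgroup.Gamma0 N) = ModularCurve.dedekindPsi N) :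
    (Module.finrank ℂ (ModularCurve.Period.parabolicHoms ℂ (CongruenceSubgroup.Gamma0 N) ℂ) : ℚ)
      ≤ 2 * ModularCurve.genusFormula N := by
  have _h := hQ
  exact finrank_parabolicHoms_Gamma0_le N

end Fermat.Agent.S21
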