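/-
S21 support library: maximum principle on `X₀(N)`.

A holomorphic function on the upper half plane whose norm is `Γ₀(N)`-invariant, and all of whose
`SL(2, ℤ)`-translates are `N`-periodic and bounded at `i∞`, is constant.
-/
import Mathlib
import Fermat.Agent.S22.Basic
import Fermat.Agent.S22.Forms

set_option autoImplicit false

open UpperHalfPlane Filter Function Complex Metric CongruenceSubgroup
open scoped MatrixGroups ModularForm Manifold Topology Real

namespace Fermat.Agent.S21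

/-- If `1/2 ≤ im z` then `‖q_N(z)‖ ≤ exp (-π / N)`. -/
theorem maxAux_norm_qParam_le (N : ℕ) [NeZero N] (z : ℍ) (hz : 1 / 2 ≤ z.im) :
    ‖Function.Periodic.qParam (N : ℝ) (z : ℂ)‖ ≤ Real.exp (-π / N) := by
  rw [Function.Periodic.norm_qParam]
  apply Real.exp_le_exp.mpr
  have hN : (0 : ℝ) < N := Nat.cast_pos.mpr (NeZero.pos N)
  rw [div_le_div_iff_of_pos_right hN]
  have h1 := Real.pi_pos
  have h2 : (z : ℂ).im = z.im := rfl
  rw [h2]
  nlinarith

/-- Representatives: every `δ : SL(2, ℤ)` is `h * r` with `h ∈ Γ₀(N)` and `r` in a fixed finite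
family indexed by the (finite) coset space. -/
theorem maxAux_rep (N : ℕ) (δ : SL(2, ℤ)) :
    ∃ h ∈ Gamma0 N, δ = h * ((QuotientGroup.mk δ⁻¹ : SL(2, ℤ) ⧸ Gamma0 N).out)⁻¹ := by
  obtain ⟨h, hh⟩ := QuotientGroup.mk_out_eq_mul (Gamma0 N) δ⁻¹
  refine ⟨h, h.2, ?_⟩
  rw [hh]
  group

/-- The translate `w ↦ G (δ • w)` of a holomorphic function is holomorphic. -/
theorem maxAux_mdiff {G : ℍ → ℂ} (hG : MDiff G) (δ : SL(2, ℤ)) :
    MDiff (fun w : ℍ => G (δ • w)) := by
  have h := hG.comp (mdifferentiable_smul (S22.det_mapGL_pos δ))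
  exact h

/-- Periodicity on `ℍ` gives periodicity of the extension by `ofComplex`. -/
theorem maxAux_periodic (N : ℕ) {F : ℍ → ℂ} (hF : ∀ w : ℍ, F ((N : ℝ) +ᵥ w) = F w) :
    Periodic (F ∘ ofComplex) (N : ℝ) := by
  intro w
  by_cases hw : 0 < im w
  · have hw' : 0 < im (w + (N : ℝ)) := by simpa using hw
    simp only [comp_apply, ofComplex_apply_of_im_pos hw', ofComplex_apply_of_im_pos hw]
    rw [← hF ⟨w, hw⟩]
    congr 1
    ext
    simp [add_comm]
  · have hw0 : im w ≤ 0 := not_lt.mp hw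
    have hw' : im (w + (N : ℝ)) ≤ 0 := by simpa using hw0
    rw [comp_apply, comp_apply, ofComplex_apply_of_im_nonpos hw',
      ofComplex_apply_of_im_nonpos hw0]

/-- **Maximum principle on `X₀(N)`**, multiplicative form. -/
theorem eq_const_of_norm_invariant (N : ℕ) [NeZero N] {G : ℍ → ℂ}
    (hG : MDiff G)
    (hinv : ∀ γ ∈ Gamma0 N, ∀ z : ℍ, ‖G (γ • z)‖ = ‖G z‖)
    (hper : ∀ (δ : SL(2, ℤ)) (w : ℍ), G (δ • ((N : ℝ) +ᵥ w)) = G (δ • w))
    (hbdd : ∀ δ : SL(2, ℤ), IsBoundedAtImInfty (fun w : ℍ => G (δ • w))) :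
    ∃ c : ℂ, ∀ z : ℍ, G z = c := by
  classical
  have hN : (0 : ℝ) < N := Nat.cast_pos.mpr (NeZero.pos N)
  -- the finite family of translates
  let Q := SL(2, ℤ) ⧸ Gamma0 N
  let rep : Q → SL(2, ℤ) := fun x => (x.out)⁻¹
  let Gx : Q → ℍ → ℂ := fun x w => G (rep x • w)
  let cf : Q → ℂ → ℂ := fun x => UpperHalfPlane.cuspFunction (N : ℝ) (Gx x)
  have hper' : ∀ x, Periodic (Gx x ∘ ofComplex) (N : ℝ) :=
    fun x => maxAux_periodic N (hper (rep x))
  have hdiff : ∀ x, DifferentiableOn ℂ (cf x) (ball 0 1) := fun x =>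
    differentiableOn_cuspFunction_ball hN (hper' x) (maxAux_mdiff hG (rep x)) (hbdd (rep x))
  have hcf : ∀ x (w : ℍ), cf x (Function.Periodic.qParam (N : ℝ) (w : ℂ)) = G (rep x • w) :=
    fun x w => UpperHalfPlane.eq_cuspFunction w hN.ne' (hper' x)
  set r : ℝ := Real.exp (-π / N) with hr
  have hr0 : 0 ≤ r := (Real.exp_pos _).le
  have hr1 : r < 1 := by
    rw [hr, Real.exp_lt_one_iff]
    exact div_neg_of_neg_of_pos (neg_lt_zero.mpr Real.pi_pos) hN
  -- maxima on the closed ball of radius `r`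
  have hmax : ∀ x, ∃ q ∈ closedBall (0 : ℂ) r, ∀ q' ∈ closedBall (0 : ℂ) r, ‖cf x q'‖ ≤ ‖cf x q‖ := by
    intro x
    obtain ⟨q, hq, hqmax⟩ := (isCompact_closedBall (0 : ℂ) r).exists_isMaxOn
      (nonempty_closedBall.mpr hr0)
      ((hdiff x).continuousOn.mono (closedBall_subset_ball hr1)).norm
    exact ⟨q, hq, fun q' hq' => hqmax hq'⟩
  choose qx hqx hqxmax using hmax
  have : Finite Q := Subgroup.finite_quotient_of_finiteIndex
  obtain ⟨x₀, hx₀⟩ := Finite.exists_max (fun x => ‖cf x (qx x)‖)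
  -- every value is dominated by the maximum
  have hdom : ∀ q ∈ ball (0 : ℂ) 1, ‖cf x₀ q‖ ≤ ‖cf x₀ (qx x₀)‖ := by
    intro q hq
    rcases eq_or_ne q 0 with rfl | hq0
    · exact hqxmax x₀ 0 (mem_closedBall_self hr0)
    · have hqn : ‖q‖ < 1 := mem_ball_zero_iff.mp hq
      let z : ℍ := ⟨_, Function.Periodic.im_invQParam_pos_of_norm_lt_one hN hqn hq0⟩
      have hz : Function.Periodic.qParam (N : ℝ) (z : ℂ) = q :=
        Function.Periodic.qParam_right_inv hN.ne' hq0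
      obtain ⟨σ, hσ⟩ := ModularGroup.exists_one_half_le_im_smul (rep x₀ • z)
      -- `rep x₀ • z = σ⁻¹ • (σ • rep x₀ • z)` and `σ⁻¹ = h * rep y`
      obtain ⟨h, hh, hσh⟩ := maxAux_rep N σ⁻¹
      set y : Q := (QuotientGroup.mk σ⁻¹⁻¹ : SL(2, ℤ) ⧸ Gamma0 N) with hy
      set w : ℍ := σ • rep x₀ • z with hw
      have h1 : rep x₀ • z = h • (rep y • w) := by
        have : rep x₀ • z = σ⁻¹ • w := by rw [hw, inv_smul_smul]
        rw [this, hσh, mul_smul]
      calc ‖cf x₀ q‖ = ‖G (rep x₀ • z)‖ := by rw [← hz, hcf]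
        _ = ‖G (rep y • w)‖ := by rw [h1, hinv h hh]
        _ = ‖cf y (Function.Periodic.qParam (N : ℝ) (w : ℂ))‖ := by rw [hcf]
        _ ≤ ‖cf y (qx y)‖ := hqxmax y _ (by
            rw [mem_closedBall_zero_iff]; exact maxAux_norm_qParam_le N w hσ)
        _ ≤ ‖cf x₀ (qx x₀)‖ := hx₀ y
  have hconst := Complex.eq_const_of_exists_le (hdiff x₀) hr0 hr1
    (fun q hq => ⟨qx x₀, hqx x₀, hdom q hq⟩)
  refine ⟨cf x₀ 0, fun z => ?_⟩
  have hq : Function.Periodic.qParam (N : ℝ) (((rep x₀)⁻¹ • z : ℍ) : ℂ) ∈ ball (0 : ℂ) 1 := by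
    rw [mem_ball_zero_iff]
    exact Function.Periodic.norm_qParam_lt_one hN ((rep x₀)⁻¹ • z).im_pos
  have h2 := hconst hq
  rw [hcf, smul_inv_smul] at h2
  exact h2

/-- Translation by a real number preserves the filter `atImInfty`. -/
theorem maxAux_tendsto_vadd (x : ℝ) :
    Tendsto (fun w : ℍ => x +ᵥ w) atImInfty atImInfty := by
  rw [atImInfty, tendsto_comap_iff]
  have : (UpperHalfPlane.im ∘ fun w : ℍ => x +ᵥ w) = UpperHalfPlane.im := by
    funext w
    simp [UpperHalfPlane.vadd_im]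
  rw [this]
  exact tendsto_comap

/-- If `G` changes by constants under `Γ₀(N)` and every `SL(2, ℤ)`-translate of `G` has a limit
at `i∞`, then every translate of `G` is `N`-periodic. -/
theorem maxAux_translate_periodic (N : ℕ) {G : ℍ → ℂ}
    (hinv : ∀ γ ∈ Gamma0 N, ∃ c : ℂ, ∀ z : ℍ, G (γ • z) - G z = c)
    (hcusp : ∀ δ : SL(2, ℤ), ∃ L : ℂ, Tendsto (fun w : ℍ => G (δ • w)) atImInfty (𝓝 L))
    (δ : SL(2, ℤ)) (w : ℍ) : G (δ • ((N : ℝ) +ᵥ w)) = G (δ • w) := by
  obtain ⟨c, hc⟩ := hinv _ (S22.formsAux_conj_T_pow_mem_Gamma0 N δ)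
  obtain ⟨L, hL⟩ := hcusp δ
  have hkey : ∀ w : ℍ, G (δ • ((N : ℝ) +ᵥ w)) - G (δ • w) = c := by
    intro w
    have h := hc (δ • w)
    rw [mul_smul, mul_smul, inv_smul_smul, UpperHalfPlane.modular_T_zpow_smul] at h
    simpa using h
  have hL' : Tendsto (fun w : ℍ => G (δ • ((N : ℝ) +ᵥ w))) atImInfty (𝓝 L) :=
    hL.comp (maxAux_tendsto_vadd (N : ℝ))
  have hlim : Tendsto (fun w : ℍ => G (δ • ((N : ℝ) +ᵥ w)) - G (δ • w)) atImInfty (𝓝 (L - L)) :=
    hL'.sub hL
  have hconst : Tendsto (fun w : ℍ => G (δ • ((N : ℝ) +ᵥ w)) - G (δ • w)) atImInfty (𝓝 c) := by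
    simp only [hkey]
    exact tendsto_const_nhds
  have hc0 : c = 0 := by
    have := tendsto_nhds_unique hconst hlim
    simpa using this
  have := hkey w
  rw [hc0, sub_eq_zero] at this
  exact this

/-- **Maximum principle on `X₀(N)`**, additive form: a holomorphic function on `ℍ` which changes
by purely imaginary constants under `Γ₀(N)`, and all of whose `SL(2, ℤ)`-translates have limits at
`i∞`, has zero derivative. -/
theorem deriv_eq_zero_of_re_invariant (N : ℕ) [NeZero N] {G g : ℍ → ℂ} (hG : S22.HasDerivH G g)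
    (hinv : ∀ γ ∈ Gamma0 N, ∃ c : ℂ, c.re = 0 ∧ ∀ z : ℍ, G (γ • z) - G z = c)
    (hcusp : ∀ δ : SL(2, ℤ), ∃ L : ℂ, Tendsto (fun w : ℍ => G (δ • w)) atImInfty (𝓝 L)) :
    g = 0 := by
  have hE : S22.HasDerivH (fun z => cexp (G z)) (fun z => cexp (G z) * g z) := by
    intro z
    have h := (hG z).cexp
    simp only [comp_apply, ofComplex_apply] at h
    exact h
  have hper := maxAux_translate_periodic N
    (fun γ hγ => (hinv γ hγ).imp fun c hc => hc.2) hcusp
  obtain ⟨c, hc⟩ := eq_const_of_norm_invariant N (G := fun z => cexp (G z)) hE.mdiff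
    (by
      intro γ hγ z
      obtain ⟨c, hc0, hc⟩ := hinv γ hγ
      have h1 : G (γ • z) = G z + c := by rw [← hc z]; ring
      rw [Complex.norm_exp, Complex.norm_exp, h1, Complex.add_re, hc0, add_zero])
    (by
      intro δ w
      show cexp (G (δ • ((N : ℝ) +ᵥ w))) = cexp (G (δ • w))
      rw [hper δ w])
    (by
      intro δ
      obtain ⟨L, hL⟩ := hcusp δ
      exact hL.cexp.isBigO_one ℝ)
  funext z
  have h1 : S22.HasDerivH (fun z => cexp (G z)) (fun _ => 0) := by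
    have : (fun z => cexp (G z)) = fun _ : ℍ => c := funext hc
    rw [this]
    exact S22.hasDerivH_const c
  have h2 := (hE z).unique (h1 z)
  have h3 : cexp (G z) ≠ 0 := Complex.exp_ne_zero _
  simpa [h3] using h2

end Fermat.Agent.S21
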