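/-
S21 support library: injectivity core for the pair period map.
-/
import Fermat.Agent.S22.Basic
import Fermat.Agent.S22.Forms
import Fermat.Agent.S21.MaxPrinciple
import Fermat.Prelude.Def_ModularCurve_PeriodHomPair

set_option autoImplicit false

open UpperHalfPlane Filter Function ModularCurve ModularCurve.Period
open scoped MatrixGroups ModularForm Manifold Topology ComplexConjugate

namespace Fermat.Agent.S21

/-! ### The reflection `z ↦ -conj z` -/

/-- The reflection `J` intertwines `γ` and `jConjSL γ`. -/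
theorem refl_mul_mapGL (γ : SL(2, ℤ)) :
    UpperHalfPlane.J * (Matrix.SpecialLinearGroup.mapGL ℝ γ : GL (Fin 2) ℝ) =
      (Matrix.SpecialLinearGroup.mapGL ℝ (jConjSL γ) : GL (Fin 2) ℝ) * UpperHalfPlane.J := by
  apply Units.ext
  ext i j
  fin_cases i <;> fin_cases j <;>
    simp [Matrix.mul_apply, Fin.sum_univ_two, jConjMat]

/-- `J • (γ • z) = jConjSL γ • (J • z)`. -/
theorem refl_smul_smul (γ : SL(2, ℤ)) (z : ℍ) :
    UpperHalfPlane.J • (γ • z) = (jConjSL γ) • (UpperHalfPlane.J • z) := by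
  show UpperHalfPlane.J • ((Matrix.SpecialLinearGroup.mapGL ℝ γ : GL (Fin 2) ℝ) • z) =
    (Matrix.SpecialLinearGroup.mapGL ℝ (jConjSL γ) : GL (Fin 2) ℝ) • (UpperHalfPlane.J • z)
  rw [← mul_smul, ← mul_smul, refl_mul_mapGL]

theorem refl_smul_refl_smul (z : ℍ) : UpperHalfPlane.J • (UpperHalfPlane.J • z) = z := by
  rw [← mul_smul, ← sq, UpperHalfPlane.J_sq, one_smul]

theorem refl_im (z : ℍ) : (UpperHalfPlane.J • z).im = z.im := by
  have h := UpperHalfPlane.coe_J_smul z
  have h2 := congrArg Complex.im h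
  simpa using h2

theorem refl_tendsto_atImInfty :
    Tendsto (fun w : ℍ => UpperHalfPlane.J • w) atImInfty atImInfty := by
  unfold atImInfty
  rw [tendsto_comap_iff]
  have : (UpperHalfPlane.im ∘ fun w : ℍ => UpperHalfPlane.J • w) = UpperHalfPlane.im := by
    funext w
    exact refl_im w
  rw [this]
  exact tendsto_comap

/-- The reflected conjugate `z ↦ conj (F (J • z))` of a holomorphic function is holomorphic, with
derivative `z ↦ -conj (F' (J • z))`. -/
theorem refl_hasDerivH {F F' : ℍ → ℂ} (hF : S22.HasDerivH F F') :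
    S22.HasDerivH (fun z => conj (F (UpperHalfPlane.J • z)))
      (fun z => -conj (F' (UpperHalfPlane.J • z))) := by
  intro z
  have hJ : ((UpperHalfPlane.J • z : ℍ) : ℂ) = -conj (z : ℂ) := UpperHalfPlane.coe_J_smul z
  -- derivative of `u ↦ (F ∘ ofComplex) (-u)` at `conj z`
  have h1 : HasDerivAt (fun u : ℂ => (F ∘ ofComplex) (-u)) (-(F' (UpperHalfPlane.J • z)))
      (conj (z : ℂ)) := by
    have h0 := hF (UpperHalfPlane.J • z)
    rw [hJ] at h0
    have hneg : HasDerivAt (fun u : ℂ => -u) (-1) (conj (z : ℂ)) := (hasDerivAt_id _).neg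
    have h3 : HasDerivAt ((F ∘ ofComplex) ∘ fun u : ℂ => -u)
        (F' (UpperHalfPlane.J • z) * (-1)) (conj (z : ℂ)) :=
      HasDerivAt.comp (conj (z : ℂ)) h0 hneg
    rw [mul_neg, mul_one] at h3
    exact h3
  have h2 := h1.conj_conj
  rw [Complex.conj_conj] at h2
  rw [map_neg] at h2
  refine h2.congr_of_eventuallyEq ?_
  have hopen : {w : ℂ | 0 < w.im} ∈ 𝓝 (z : ℂ) := isOpen_upperHalfPlaneSet.mem_nhds z.im_pos
  filter_upwards [hopen] with w hw
  simp only [Function.comp_apply]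
  rw [ofComplex_apply_of_im_pos hw]
  congr 2
  have hw' : 0 < (-conj w).im := by simpa using hw
  rw [ofComplex_apply_of_im_pos hw']
  apply UpperHalfPlane.ext
  rw [UpperHalfPlane.coe_J_smul]

/-! ### The injectivity core -/

/-- The shape of the maximum principle used below (it is `deriv_eq_zero_of_re_invariant` of
`MaxPrinciple.lean`, see `reInvariantRigid`). -/
def ReInvariantRigid (N : ℕ) : Prop :=
  ∀ {G g : ℍ → ℂ}, S22.HasDerivH G g →
    (∀ γ ∈ CongruenceSubgroup.Gamma0 N, ∃ c : ℂ, c.re = 0 ∧ ∀ z : ℍ, G (γ • z) - G z = c) →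
    (∀ δ : SL(2, ℤ), ∃ L : ℂ, Tendsto (fun w : ℍ => G (δ • w)) atImInfty (𝓝 L)) → g = 0

/-- Injectivity core: if the periods of `a` and the reflected periods of `b` cancel, then
`a = b = 0`. -/
theorem inj_core_of_rigid {N : ℕ} (hMP : ReInvariantRigid N)
    {a b : CuspForm (CongruenceSubgroup.Gamma0 N) 2} {Fa Fb : ℍ → ℂ}
    (ha : HasEquivariantPrimitive N a Fa) (hb : HasEquivariantPrimitive N b Fb)
    (h : ∀ γ : CongruenceSubgroup.Gamma0 N,
      ha.2.2.1.period γ + hb.2.2.1.period (jConjGamma0 N γ) = 0) :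
    a = 0 ∧ b = 0 := by
  have hFa : S22.HasDerivH Fa a := ha.1
  have hFb : S22.HasDerivH Fb b := hb.1
  set K : ℍ → ℂ := fun z => conj (Fb (UpperHalfPlane.J • z)) with hK
  have hKd : S22.HasDerivH K (fun z => -conj (b (UpperHalfPlane.J • z))) := refl_hasDerivH hFb
  -- equivariance of `K`
  have hKeq : ∀ (γ : CongruenceSubgroup.Gamma0 N) (z : ℍ),
      K ((γ : SL(2, ℤ)) • z) - K z = conj (hb.2.2.1.period (jConjGamma0 N γ)) := by
    intro γ z
    have h1 := hb.2.2.1.sub_eq_period (jConjGamma0 N γ) (UpperHalfPlane.J • z)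
    rw [jConjGamma0_coe, ← refl_smul_smul] at h1
    simp only [hK]
    rw [← h1, map_sub]
  have hFaeq : ∀ (γ : CongruenceSubgroup.Gamma0 N) (z : ℍ),
      Fa ((γ : SL(2, ℤ)) • z) - Fa z = ha.2.2.1.period γ := fun γ z =>
    ha.2.2.1.sub_eq_period γ z
  -- limits of `K` at the cusps
  have hKcusp : ∀ δ : SL(2, ℤ), ∃ L : ℂ, Tendsto (fun w : ℍ => K (δ • w)) atImInfty (𝓝 L) := by
    intro δ
    obtain ⟨L, hL⟩ := hb.2.2.2 (jConjSL δ)
    refine ⟨conj L, ?_⟩
    have h1 : Tendsto (fun w : ℍ => Fb ((jConjSL δ) • (UpperHalfPlane.J • w))) atImInfty (𝓝 L) :=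
      hL.comp refl_tendsto_atImInfty
    have h2 := (Complex.continuous_conj.tendsto L).comp h1
    refine h2.congr ?_
    intro w
    simp only [Function.comp_apply, hK]
    rw [refl_smul_smul]
  have hFacusp := ha.2.2.2
  -- first application: `G₁ = Fa + K`
  have e1 : (a : ℍ → ℂ) + (fun z => -conj (b (UpperHalfPlane.J • z))) = 0 := by
    refine hMP (hFa.add hKd) ?_ ?_
    · intro γ hγ
      refine ⟨ha.2.2.1.period ⟨γ, hγ⟩ + conj (hb.2.2.1.period (jConjGamma0 N ⟨γ, hγ⟩)), ?_, ?_⟩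
      · have h0 := h ⟨γ, hγ⟩
        have h1 : hb.2.2.1.period (jConjGamma0 N ⟨γ, hγ⟩) = -ha.2.2.1.period ⟨γ, hγ⟩ := by
          linear_combination h0
        rw [h1]
        simp
      · intro z
        have k1 := hFaeq ⟨γ, hγ⟩ z
        have k2 := hKeq ⟨γ, hγ⟩ z
        simp only [Pi.add_apply]
        linear_combination k1 + k2
    · intro δ
      obtain ⟨L₁, hL₁⟩ := hFacusp δ
      obtain ⟨L₂, hL₂⟩ := hKcusp δ
      exact ⟨L₁ + L₂, hL₁.add hL₂⟩
  -- second application: `G₂ = I * (Fa - K)`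
  have e2 : (fun z => Complex.I * ((a : ℍ → ℂ) - (fun z => -conj (b (UpperHalfPlane.J • z)))) z)
      = 0 := by
    refine hMP ((hFa.sub hKd).const_mul Complex.I) ?_ ?_
    · intro γ hγ
      refine ⟨Complex.I * (ha.2.2.1.period ⟨γ, hγ⟩ -
        conj (hb.2.2.1.period (jConjGamma0 N ⟨γ, hγ⟩))), ?_, ?_⟩
      · have h0 := h ⟨γ, hγ⟩
        have h1 : hb.2.2.1.period (jConjGamma0 N ⟨γ, hγ⟩) = -ha.2.2.1.period ⟨γ, hγ⟩ := by
          linear_combination h0
        rw [h1]
        simp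
      · intro z
        have k1 := hFaeq ⟨γ, hγ⟩ z
        have k2 := hKeq ⟨γ, hγ⟩ z
        simp only [Pi.sub_apply]
        linear_combination Complex.I * k1 - Complex.I * k2
    · intro δ
      obtain ⟨L₁, hL₁⟩ := hFacusp δ
      obtain ⟨L₂, hL₂⟩ := hKcusp δ
      exact ⟨Complex.I * (L₁ - L₂), (hL₁.sub hL₂).const_mul Complex.I⟩
  have key : ∀ z : ℍ, a z = 0 ∧ conj (b (UpperHalfPlane.J • z)) = 0 := by
    intro z
    have k1 := congrFun e1 z
    have k2 := congrFun e2 z
    simp only [Pi.add_apply, Pi.sub_apply, Pi.zero_apply] at k1 k2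
    have k3 : a z - -conj (b (UpperHalfPlane.J • z)) = 0 := by
      rcases mul_eq_zero.mp k2 with hI | h3
      · exact absurd hI Complex.I_ne_zero
      · exact h3
    constructor
    · linear_combination (1 / 2 : ℂ) * k1 + (1 / 2 : ℂ) * k3
    · linear_combination (-1 / 2 : ℂ) * k1 + (1 / 2 : ℂ) * k3
  constructor
  · ext z
    exact (key z).1
  · ext z
    have h1 := (key (UpperHalfPlane.J • z)).2
    rw [refl_smul_refl_smul] at h1
    simpa using h1

/-- The injectivity core in terms of `periodMap`, given existence of equivariant primitives. -/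
theorem inj_of_rigid {N : ℕ} (hMP : ReInvariantRigid N)
    (hex : ∀ f : CuspForm (CongruenceSubgroup.Gamma0 N) 2, ∃ F : ℍ → ℂ,
      HasEquivariantPrimitive N f F)
    (a b : CuspForm (CongruenceSubgroup.Gamma0 N) 2)
    (h : ∀ γ : CongruenceSubgroup.Gamma0 N, periodMap N a (Additive.ofMul γ)
        + periodMap N b (Additive.ofMul (jConjGamma0 N γ)) = 0) : a = 0 ∧ b = 0 := by
  obtain ⟨Fa, hFa⟩ := hex a
  obtain ⟨Fa₀, ha₀, ea⟩ := periodMap_def N a hFa
  obtain ⟨Fb, hFb⟩ := hex b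
  obtain ⟨Fb₀, hb₀, eb⟩ := periodMap_def N b hFb
  refine inj_core_of_rigid hMP ha₀ hb₀ ?_
  intro γ
  have h1 := h γ
  rw [ea, eb] at h1
  exact h1

theorem reInvariantRigid (N : ℕ) [NeZero N] : ReInvariantRigid N :=
  fun hG hinv hcusp => deriv_eq_zero_of_re_invariant N hG hinv hcusp

/-- **Conjugate-symmetric vanishing**: if the periods of `a` and the reflected periods of `b`
cancel, then `a = b = 0`. (`hex` is the existence of Eichler integrals, `PeriodMap.lean`.) -/
theorem periodMap_conj_vanishing (N : ℕ) [NeZero N]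
    (hex : ∀ f : CuspForm (CongruenceSubgroup.Gamma0 N) 2, ∃ F : ℍ → ℂ,
      HasEquivariantPrimitive N f F)
    (a b : CuspForm (CongruenceSubgroup.Gamma0 N) 2)
    (h : ∀ γ : CongruenceSubgroup.Gamma0 N, periodMap N a (Additive.ofMul γ)
        + periodMap N b (Additive.ofMul (jConjGamma0 N γ)) = 0) : a = 0 ∧ b = 0 :=
  inj_of_rigid (reInvariantRigid N) hex a b h

end Fermat.Agent.S21
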