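/-
S21 / Pair.lean (owner: helper22).

Formal consequences of the definition of `ModularCurve.periodHomPair`:
* the explicit formula `periodHomPair N (f, g) = P (f + g) + ι (P (f - g))`;
* `range (periodHomPair N) ≤ parabolicHoms` given that every `periodMap N f` is parabolic;
* injectivity of `periodHomPair N` from the "conjugate-symmetric vanishing" statement;
* the equality of the range with `parabolicHoms` from a dimension bound.

Everything here is pure linear algebra on top of the Prelude definitions; the analytic and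
combinatorial inputs enter as hypotheses.
-/
import Mathlib
import Fermat.Prelude.Def_ModularCurve_PeriodHomPair

set_option autoImplicit false

open CongruenceSubgroup ModularCurve ModularCurve.Period
open scoped MatrixGroups

namespace Fermat.Agent.S21

variable (N : ℕ)

/-- The explicit formula for `periodHomPair`, as soon as the period map is linear. -/
theorem periodHomPair_apply (h : ExistsPeriodMapLinear N)
    (f g : CuspForm (Gamma0 N) 2) :
    periodHomPair N (f, g)
      = periodMap N (f + g) + charInvolution N ℂ ℂ (periodMap N (f - g)) := by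
  obtain ⟨pml, hpml, hdef⟩ := periodHomPair_def N h
  rw [hdef, ← hpml, ← hpml, map_add, map_sub]
  simp only [LinearMap.coprod_apply, LinearMap.coe_comp, Function.comp_apply,
    LinearMap.add_apply, LinearMap.sub_apply, LinearMap.id_coe, id_eq, map_sub]
  abel

/-- Pointwise form of `periodHomPair_apply`. -/
theorem periodHomPair_apply_apply (h : ExistsPeriodMapLinear N)
    (f g : CuspForm (Gamma0 N) 2) (γ : Gamma0 N) :
    periodHomPair N (f, g) (Additive.ofMul γ)
      = periodMap N (f + g) (Additive.ofMul γ)
        + periodMap N (f - g) (Additive.ofMul (jConjGamma0 N γ)) := by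
  rw [periodHomPair_apply N h]
  rfl

/-- If every `periodMap N f` is a parabolic homomorphism, then so is everything in the range of
`periodHomPair N`. -/
theorem range_periodHomPair_le (h : ExistsPeriodMapLinear N)
    (hpar : ∀ f : CuspForm (Gamma0 N) 2, periodMap N f ∈ parabolicHoms ℂ (Gamma0 N) ℂ) :
    LinearMap.range (periodHomPair N) ≤ parabolicHoms ℂ (Gamma0 N) ℂ := by
  rintro _ ⟨⟨f, g⟩, rfl⟩
  rw [periodHomPair_apply N h]
  exact Submodule.add_mem _ (hpar _) (charInvolution_mem_parabolicHoms N ℂ ℂ (hpar _))

/-- Injectivity of `periodHomPair N` from the conjugate-symmetric vanishing statement. -/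
theorem periodHomPair_injective (h : ExistsPeriodMapLinear N)
    (hinj : ∀ a b : CuspForm (Gamma0 N) 2,
      (∀ γ : Gamma0 N, periodMap N a (Additive.ofMul γ)
          + periodMap N b (Additive.ofMul (jConjGamma0 N γ)) = 0) → a = 0 ∧ b = 0) :
    Function.Injective (periodHomPair N) := by
  rw [injective_iff_map_eq_zero]
  rintro ⟨f, g⟩ hfg
  have key : ∀ γ : Gamma0 N, periodMap N (f + g) (Additive.ofMul γ)
      + periodMap N (f - g) (Additive.ofMul (jConjGamma0 N γ)) = 0 := by
    intro γ
    rw [← periodHomPair_apply_apply N h, hfg]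
    rfl
  obtain ⟨h1, h2⟩ := hinj _ _ key
  have hf : f = 0 := by
    have h3 : (2 : ℂ) • f = 0 := by
      have : (f + g) + (f - g) = 0 := by rw [h1, h2, add_zero]
      rw [two_smul]
      rw [← this]; abel
    exact (smul_eq_zero.mp h3).resolve_left two_ne_zero
  have hg : g = 0 := by
    rw [hf, zero_add] at h1
    exact h1
  rw [hf, hg]
  rfl

/-- The range of `periodHomPair N` is all of `parabolicHoms`, given injectivity, the inclusion
of the range in the parabolic homs and the dimension inequality
`dim Hom_par ≤ 2 * dim S₂`. -/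
theorem range_periodHomPair_eq
    (hle : LinearMap.range (periodHomPair N) ≤ parabolicHoms ℂ (Gamma0 N) ℂ)
    (hinj : Function.Injective (periodHomPair N))
    (hfin : Module.Finite ℂ (parabolicHoms ℂ (Gamma0 N) ℂ))
    (hdim : Module.finrank ℂ (parabolicHoms ℂ (Gamma0 N) ℂ)
      ≤ 2 * Module.finrank ℂ (CuspForm (Gamma0 N) 2)) :
    LinearMap.range (periodHomPair N) = parabolicHoms ℂ (Gamma0 N) ℂ := by
  classical
  -- `S₂ × S₂` embeds into the finite-dimensional space of parabolic homs.
  let ι : (CuspForm (Gamma0 N) 2 × CuspForm (Gamma0 N) 2) →ₗ[ℂ]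
      parabolicHoms ℂ (Gamma0 N) ℂ :=
    LinearMap.codRestrict _ (periodHomPair N) (fun x => hle ⟨x, rfl⟩)
  have hι : Function.Injective ι := by
    intro x y hxy
    apply hinj
    have := congrArg Subtype.val hxy
    exact this
  have hfin2 : Module.Finite ℂ (CuspForm (Gamma0 N) 2 × CuspForm (Gamma0 N) 2) :=
    Module.Finite.of_injective ι hι
  have hfin1 : Module.Finite ℂ (CuspForm (Gamma0 N) 2) :=
    Module.Finite.of_surjective
      (LinearMap.fst ℂ (CuspForm (Gamma0 N) 2) (CuspForm (Gamma0 N) 2)) LinearMap.fst_surjective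
  refine Submodule.eq_of_le_of_finrank_le hle ?_
  rw [LinearMap.finrank_range_of_inj hinj, Module.finrank_prod]
  omega

/-- Assembly of the Eichler–Shimura statement from its four inputs. -/
theorem eichlerShimura_of
    (h : ExistsPeriodMapLinear N)
    (hpar : ∀ f : CuspForm (Gamma0 N) 2, periodMap N f ∈ parabolicHoms ℂ (Gamma0 N) ℂ)
    (hinj : ∀ a b : CuspForm (Gamma0 N) 2,
      (∀ γ : Gamma0 N, periodMap N a (Additive.ofMul γ)
          + periodMap N b (Additive.ofMul (jConjGamma0 N γ)) = 0) → a = 0 ∧ b = 0)
    (hfin : Module.Finite ℂ (parabolicHoms ℂ (Gamma0 N) ℂ))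
    (hdim : Module.finrank ℂ (parabolicHoms ℂ (Gamma0 N) ℂ)
      ≤ 2 * Module.finrank ℂ (CuspForm (Gamma0 N) 2)) :
    Function.Injective (periodHomPair N)
      ∧ LinearMap.range (periodHomPair N) = parabolicHoms ℂ (Gamma0 N) ℂ :=
  ⟨periodHomPair_injective N h hinj,
    range_periodHomPair_eq N (range_periodHomPair_le N h hpar)
      (periodHomPair_injective N h hinj) hfin hdim⟩

/-- Conversely (for the S20 upper bound): injectivity plus range in the parabolic homs gives
`2 * dim S₂ ≤ dim Hom_par`, and finite-dimensionality of `S₂`. -/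
theorem two_mul_finrank_cuspForm_le
    (hle : LinearMap.range (periodHomPair N) ≤ parabolicHoms ℂ (Gamma0 N) ℂ)
    (hinj : Function.Injective (periodHomPair N))
    (hfin : Module.Finite ℂ (parabolicHoms ℂ (Gamma0 N) ℂ)) :
    Module.Finite ℂ (CuspForm (Gamma0 N) 2) ∧
      2 * Module.finrank ℂ (CuspForm (Gamma0 N) 2)
        ≤ Module.finrank ℂ (parabolicHoms ℂ (Gamma0 N) ℂ) := by
  classical
  let ι : (CuspForm (Gamma0 N) 2 × CuspForm (Gamma0 N) 2) →ₗ[ℂ]
      parabolicHoms ℂ (Gamma0 N) ℂ :=
    LinearMap.codRestrict _ (periodHomPair N) (fun x => hle ⟨x, rfl⟩)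
  have hι : Function.Injective ι := by
    intro x y hxy
    apply hinj
    have := congrArg Subtype.val hxy
    exact this
  have hfin2 : Module.Finite ℂ (CuspForm (Gamma0 N) 2 × CuspForm (Gamma0 N) 2) :=
    Module.Finite.of_injective ι hι
  have hfin1 : Module.Finite ℂ (CuspForm (Gamma0 N) 2) :=
    Module.Finite.of_surjective
      (LinearMap.fst ℂ (CuspForm (Gamma0 N) 2) (CuspForm (Gamma0 N) 2)) LinearMap.fst_surjective
  refine ⟨inferInstance, ?_⟩
  have h1 := LinearMap.finrank_le_finrank_of_injective hι
  rw [Module.finrank_prod] at h1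
  omega

end Fermat.Agent.S21
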