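/-
S21 block (2): the period homomorphism of an equivariant primitive with limits at all
cusps kills every element of trace `±2`; in particular `periodMap N f` is a parabolic
homomorphism.  Owner: helper79.
-/
import Mathlib
import Fermat.Prelude.Def_ModularCurve_PeriodHomPair

set_option autoImplicit false

namespace Fermat.Agent.S21

open UpperHalfPlane CongruenceSubgroup Filter Topology ModularCurve ModularCurve.Period
open ModularGroup
open scoped MatrixGroups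

/-- An element of `SL(2, ℤ)` whose lower-left entry vanishes is `± T ^ m`. -/
theorem eq_T_zpow_or_neg_of_c_eq_zero (g : SL(2, ℤ)) (hc : g 1 0 = 0) :
    ∃ m : ℤ, g = T ^ m ∨ g = -T ^ m := by
  have hdet := Matrix.det_fin_two (g : Matrix (Fin 2) (Fin 2) ℤ)
  rw [g.det_coe, hc, mul_zero, sub_zero] at hdet
  rcases Int.eq_one_or_neg_one_of_mul_eq_one' hdet.symm with ⟨h0, h1⟩ | ⟨h0, h1⟩
  · refine ⟨g 0 1, Or.inl ?_⟩
    ext i j
    fin_cases i <;> fin_cases j <;> simp [coe_T_zpow, h0, h1, hc]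
  · refine ⟨-g 0 1, Or.inr ?_⟩
    ext i j
    fin_cases i <;> fin_cases j <;> simp [coe_T_zpow, h0, h1, hc]

/-- A matrix of `SL(2, ℤ)` with trace `2 ε`, `ε = ± 1`, has a primitive integral
eigenvector with eigenvalue `ε`. -/
theorem exists_coprime_eigenvector (γ : SL(2, ℤ)) (ε : ℤ) (hε : ε * ε = 1)
    (htr : γ 0 0 + γ 1 1 = 2 * ε) :
    ∃ p q : ℤ, IsCoprime p q ∧ γ 0 0 * p + γ 0 1 * q = ε * p ∧
      γ 1 0 * p + γ 1 1 * q = ε * q := by
  have hdet : γ 0 0 * γ 1 1 - γ 0 1 * γ 1 0 = 1 := by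
    have := Matrix.det_fin_two (γ : Matrix (Fin 2) (Fin 2) ℤ)
    rw [γ.det_coe] at this
    exact this.symm
  by_cases h0 : γ 0 1 = 0 ∧ ε - γ 0 0 = 0
  · refine ⟨0, 1, isCoprime_zero_left.mpr isUnit_one, ?_, ?_⟩
    · rw [h0.1]; ring
    · linear_combination htr + h0.2
  · have hg : (Int.gcd (γ 0 1) (ε - γ 0 0) : ℤ) ≠ 0 := by
      intro h
      apply h0
      have h' : Int.gcd (γ 0 1) (ε - γ 0 0) = 0 := by exact_mod_cast h
      exact Int.gcd_eq_zero_iff.mp h'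
    obtain ⟨p, hp⟩ : (Int.gcd (γ 0 1) (ε - γ 0 0) : ℤ) ∣ γ 0 1 := Int.gcd_dvd_left _ _
    obtain ⟨q, hq⟩ : (Int.gcd (γ 0 1) (ε - γ 0 0) : ℤ) ∣ ε - γ 0 0 := Int.gcd_dvd_right _ _
    set g : ℤ := (Int.gcd (γ 0 1) (ε - γ 0 0) : ℤ) with hgdef
    refine ⟨p, q, ?_, ?_, ?_⟩
    · obtain ⟨x, y, hxy⟩ : ∃ x y : ℤ, g = γ 0 1 * x + (ε - γ 0 0) * y :=
        ⟨_, _, Int.gcd_eq_gcd_ab _ _⟩
      refine ⟨x, y, ?_⟩
      apply mul_left_cancel₀ hg
      rw [hp, hq] at hxy
      linear_combination -hxy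
    · apply mul_left_cancel₀ hg
      linear_combination (g * q) * hp - (g * p) * hq
    · apply mul_left_cancel₀ hg
      have hq' : g * q = ε - γ 0 0 := hq.symm
      have hp' : g * p = γ 0 1 := hp.symm
      linear_combination γ 1 0 * hp' + (γ 1 1 - ε) * hq' - hdet + ε * htr + hε

/-- Pure matrix lemma: an element of `SL(2, ℤ)` with `trace ^ 2 = 4` is, up to sign,
conjugate in `SL(2, ℤ)` to a power of `T`. -/
theorem exists_conj_T_zpow_of_trace_sq (γ : SL(2, ℤ))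
    (h : (γ : Matrix (Fin 2) (Fin 2) ℤ).trace ^ 2 = 4) :
    ∃ (δ : SL(2, ℤ)) (m : ℤ), γ = δ * T ^ m * δ⁻¹ ∨ γ = -(δ * T ^ m * δ⁻¹) := by
  rw [Matrix.trace_fin_two] at h
  obtain ⟨ε, hε, htr⟩ : ∃ ε : ℤ, ε * ε = 1 ∧ γ 0 0 + γ 1 1 = 2 * ε := by
    have h' : (γ 0 0 + γ 1 1 - 2) * (γ 0 0 + γ 1 1 + 2) = 0 := by linear_combination h
    rcases mul_eq_zero.mp h' with h1 | h1
    · exact ⟨1, by norm_num, by linear_combination h1⟩
    · exact ⟨-1, by norm_num, by linear_combination h1⟩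
  obtain ⟨p, q, hpq, h1, h2⟩ := exists_coprime_eigenvector γ ε hε htr
  obtain ⟨δ, hδ0, hδ1⟩ := hpq.exists_SL2_col 0
  have key : (δ⁻¹ * γ * δ) 1 0 = 0 := by
    simp only [Matrix.SpecialLinearGroup.coe_mul, Matrix.SpecialLinearGroup.coe_inv,
      Matrix.adjugate_fin_two, Matrix.mul_apply, Fin.sum_univ_two, Matrix.of_apply,
      Matrix.cons_val', Matrix.cons_val_zero, Matrix.cons_val_one, hδ0, hδ1]
    linear_combination (-q) * h1 + p * h2
  obtain ⟨m, hm⟩ := eq_T_zpow_or_neg_of_c_eq_zero _ key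
  refine ⟨δ, m, ?_⟩
  rcases hm with hm | hm
  · left
    rw [← hm]; group
  · right
    have : δ * T ^ m * δ⁻¹ = -(δ * (δ⁻¹ * γ * δ) * δ⁻¹) := by
      rw [hm]; simp
    rw [this, neg_neg]; group

/-- The period homomorphism of an equivariant primitive having a limit at every cusp is
parabolic. -/
theorem periodHom_mem_parabolicHoms {Γ : Subgroup SL(2, ℤ)} {F : ℍ → ℂ}
    (hF : IsEquivariantPrimitive Γ F)
    (hcusp : ∀ δ : SL(2, ℤ), ∃ L : ℂ, Tendsto (fun w : ℍ => F (δ • w)) atImInfty (𝓝 L)) :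
    hF.periodHom ∈ parabolicHoms ℂ Γ ℂ := by
  rw [mem_parabolicHoms_iff]
  intro γ hγ
  obtain ⟨δ, m, hδ⟩ := exists_conj_T_zpow_of_trace_sq (γ : SL(2, ℤ)) hγ
  obtain ⟨L, hL⟩ := hcusp δ
  have hact : ∀ w : ℍ, (γ : SL(2, ℤ)) • (δ • w) = δ • (T ^ m • w) := by
    intro w
    rcases hδ with h | h
    · rw [h]; simp [mul_smul]
    · rw [h, SL_neg_smul]; simp [mul_smul]
  have hconst : ∀ w : ℍ, F (δ • (T ^ m • w)) - F (δ • w) = hF.period γ := by
    intro w
    rw [← hact]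
    exact hF.sub_eq_period γ (δ • w)
  have hT : Tendsto (fun w : ℍ => T ^ m • w) atImInfty atImInfty := by
    rw [atImInfty, tendsto_comap_iff]
    have : (UpperHalfPlane.im ∘ fun w : ℍ => T ^ m • w) = UpperHalfPlane.im := by
      funext w
      exact im_T_zpow_smul w m
    rw [this]
    exact tendsto_comap
  have h1 : Tendsto (fun w : ℍ => F (δ • (T ^ m • w)) - F (δ • w)) atImInfty (𝓝 (L - L)) :=
    (hL.comp hT).sub hL
  rw [sub_self] at h1
  have h2 : Tendsto (fun w : ℍ => F (δ • (T ^ m • w)) - F (δ • w)) atImInfty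
      (𝓝 (hF.period γ)) := by
    simp only [hconst]
    exact tendsto_const_nhds
  exact tendsto_nhds_unique h2 h1

/-- The period map of a weight two cusp form of level `Γ₀(N)` takes values in the
parabolic homomorphisms. -/
theorem periodMap_mem_parabolicHoms (N : ℕ) (f : CuspForm (Gamma0 N) 2) :
    periodMap N f ∈ parabolicHoms ℂ (Gamma0 N) ℂ := by
  classical
  unfold periodMap
  split_ifs with h
  · exact periodHom_mem_parabolicHoms _ h.choose_spec.2.2.2
  · exact Submodule.zero_mem _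

end Fermat.Agent.S21
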