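/-
S21 library — assembly (owner: helper21).

* `periodHomPair_injective_Gamma0` : Eichler–Shimura injectivity (unconditional).
* `range_periodHomPair_le_Gamma0` : the image consists of parabolic homomorphisms (unconditional).
* `finrank_cuspForm_le_genusFormula` : `dim S₂(Γ₀(N)) ≤ genusFormula N` (unconditional; by-product
  for S20: only the lower bound is needed there).
* `eichlerShimura_of_finrank` : the full S21 statement from `dim S₂(Γ₀(N)) = genusFormula N`
  (or just `≥`).
-/
import Fermat.Agent.S21.PeriodMap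
import Fermat.Agent.S21.Parabolic
import Fermat.Agent.S21.Injective
import Fermat.Agent.S21.Pair
import Fermat.Agent.S21.Dim

set_option autoImplicit false

open CongruenceSubgroup ModularCurve ModularCurve.Period
open scoped MatrixGroups

namespace Fermat.Agent.S21

/-- Eichler–Shimura injectivity. -/
theorem periodHomPair_injective_Gamma0 (N : ℕ) [NeZero N] :
    Function.Injective (periodHomPair N) :=
  periodHomPair_injective N (existsPeriodMapLinear N)
    (periodMap_conj_vanishing N (fun f => ⟨_, hasEquivariantPrimitive_prim N f⟩))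

/-- The image of the period map consists of parabolic homomorphisms. -/
theorem range_periodHomPair_le_Gamma0 (N : ℕ) [NeZero N] :
    LinearMap.range (periodHomPair N) ≤ parabolicHoms ℂ (Gamma0 N) ℂ :=
  range_periodHomPair_le N (existsPeriodMapLinear N) (fun f => periodMap_mem_parabolicHoms N f)

/-- `S₂(Γ₀(N))` is finite-dimensional. -/
theorem finite_cuspForm_Gamma0 (N : ℕ) [NeZero N] : Module.Finite ℂ (CuspForm (Gamma0 N) 2) :=
  (two_mul_finrank_cuspForm_le N (range_periodHomPair_le_Gamma0 N)
    (periodHomPair_injective_Gamma0 N) (finite_parabolicHoms_Gamma0 N)).1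

/-- The upper bound `dim S₂(Γ₀(N)) ≤ g(N)`, with `g(N)` the genus formula. -/
theorem finrank_cuspForm_le_genusFormula (N : ℕ) [NeZero N] :
    (Module.finrank ℂ (CuspForm (Gamma0 N) 2) : ℚ) ≤ genusFormula N := by
  have h1 := (two_mul_finrank_cuspForm_le N (range_periodHomPair_le_Gamma0 N)
    (periodHomPair_injective_Gamma0 N) (finite_parabolicHoms_Gamma0 N)).2
  have h2 := finrank_parabolicHoms_Gamma0_le N
  have h3 : (2 * (Module.finrank ℂ (CuspForm (Gamma0 N) 2) : ℚ)) ≤
      (Module.finrank ℂ (parabolicHoms ℂ (Gamma0 N) ℂ) : ℚ) := by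
    exact_mod_cast h1
  linarith

/-- The Eichler–Shimura isomorphism, given the lower bound `g(N) ≤ dim S₂(Γ₀(N))`. -/
theorem eichlerShimura_of_le (N : ℕ) [NeZero N]
    (h : genusFormula N ≤ (Module.finrank ℂ (CuspForm (Gamma0 N) 2) : ℚ)) :
    Function.Injective (periodHomPair N)
      ∧ LinearMap.range (periodHomPair N) = parabolicHoms ℂ (Gamma0 N) ℂ := by
  refine ⟨periodHomPair_injective_Gamma0 N, ?_⟩
  refine range_periodHomPair_eq N (range_periodHomPair_le_Gamma0 N)
    (periodHomPair_injective_Gamma0 N) (finite_parabolicHoms_Gamma0 N) ?_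
  have h2 := finrank_parabolicHoms_Gamma0_le N
  have h3 : (Module.finrank ℂ (parabolicHoms ℂ (Gamma0 N) ℂ) : ℚ) ≤
      ((2 * Module.finrank ℂ (CuspForm (Gamma0 N) 2) : ℕ) : ℚ) := by
    push_cast
    linarith
  exact_mod_cast h3

/-- The Eichler–Shimura isomorphism, given `dim S₂(Γ₀(N)) = g(N)` (statement S20). -/
theorem eichlerShimura_of_finrank (N : ℕ) [NeZero N]
    (h : (Module.finrank ℂ (CuspForm (Gamma0 N) 2) : ℚ) = genusFormula N) :
    Function.Injective (periodHomPair N)
      ∧ LinearMap.range (periodHomPair N) = parabolicHoms ℂ (Gamma0 N) ℂ :=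
  eichlerShimura_of_le N h.ge

end Fermat.Agent.S21
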