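import Mathlib

set_option autoImplicit false

namespace Fermat.Agent.S21.CocycleDim

open Module

section Main

variable {X : Type*} [Fintype X] [DecidableEq X]

/-- Pull back functions along a self-map of `X`. -/
noncomputable def pullL (g : X → X) : (X → ℂ) →ₗ[ℂ] (X → ℂ) := LinearMap.funLeft ℂ ℂ g

omit [Fintype X] [DecidableEq X] in
@[simp] lemma pullL_apply (g : X → X) (f : X → ℂ) (x : X) : pullL g f x = f (g x) := rfl

lemma trace_pullL (g : X → X) :
    LinearMap.trace ℂ (X → ℂ) (pullL g) = ((Finset.univ.filter fun x => g x = x).card : ℂ) := by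
  rw [LinearMap.trace_eq_matrix_trace ℂ (Pi.basisFun ℂ X), LinearMap.toMatrix_eq_toMatrix',
    Matrix.trace]
  simp only [Matrix.diag_apply, LinearMap.toMatrix'_apply, pullL_apply, Pi.single_apply]
  rw [Finset.sum_boole]

/-- Functions anti-invariant under `s`. -/
def antiSub (s : X → X) : Submodule ℂ (X → ℂ) where
  carrier := {f | ∀ x, f (s x) + f x = 0}
  zero_mem' := by intro x; simp
  add_mem' := by
    intro f g hf hg x
    have h1 := hf x
    have h2 := hg x
    simp only [Pi.add_apply]
    linear_combination h1 + h2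
  smul_mem' := by
    intro c f hf x
    have h1 := hf x
    simp only [Pi.smul_apply, smul_eq_mul]
    linear_combination c * h1

/-- Functions whose sum over each `r`-orbit (`r` of order three) vanishes. -/
def triSub (r : X → X) : Submodule ℂ (X → ℂ) where
  carrier := {f | ∀ x, f x + f (r x) + f (r (r x)) = 0}
  zero_mem' := by intro x; simp
  add_mem' := by
    intro f g hf hg x
    have h1 := hf x
    have h2 := hg x
    simp only [Pi.add_apply]
    linear_combination h1 + h2
  smul_mem' := by
    intro c f hf x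
    have h1 := hf x
    simp only [Pi.smul_apply, smul_eq_mul]
    linear_combination c * h1

/-- Functions whose sum along `m` steps of `t` vanishes. -/
def parSub (t : X → X) (m : ℕ) : Submodule ℂ (X → ℂ) where
  carrier := {f | ∀ x, ∑ i ∈ Finset.range m, f (t^[i] x) = 0}
  zero_mem' := by intro x; simp
  add_mem' := by
    intro f g hf hg x
    have h1 := hf x
    have h2 := hg x
    simp only [Pi.add_apply, Finset.sum_add_distrib, h1, h2, add_zero]
  smul_mem' := by
    intro c f hf x
    have h1 := hf x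
    simp only [Pi.smul_apply, smul_eq_mul, ← Finset.mul_sum, h1, mul_zero]

lemma two_mul_finrank_antiSub (s : X → X) (hs : ∀ x, s (s x) = x) :
    2 * finrank ℂ (antiSub s) + (Finset.univ.filter fun x => s x = x).card = Fintype.card X := by
  have hproj : LinearMap.IsProj (antiSub s) ((1 / 2 : ℂ) • (LinearMap.id - pullL s)) := by
    constructor
    · intro f x
      simp only [LinearMap.smul_apply, LinearMap.sub_apply, LinearMap.id_apply, Pi.smul_apply,
        Pi.sub_apply, pullL_apply, smul_eq_mul, hs]
      ring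
    · intro f hf
      ext x
      have h1 := hf x
      simp only [LinearMap.smul_apply, LinearMap.sub_apply, LinearMap.id_apply, Pi.smul_apply,
        Pi.sub_apply, pullL_apply, smul_eq_mul]
      linear_combination (-1 / 2 : ℂ) * h1
  have htr := hproj.trace
  rw [map_smul, map_sub, LinearMap.trace_id, trace_pullL, Module.finrank_fintype_fun_eq_card]
    at htr
  have h2 : (2 : ℂ) * (finrank ℂ (antiSub s) : ℂ)
      + ((Finset.univ.filter fun x => s x = x).card : ℂ) = (Fintype.card X : ℂ) := by
    rw [← htr]; simp only [smul_eq_mul]; ring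
  exact_mod_cast h2

lemma three_mul_finrank_triSub (r : X → X) (hr : ∀ x, r (r (r x)) = x) :
    3 * finrank ℂ (triSub r) + 2 * (Finset.univ.filter fun x => r x = x).card
      = 2 * Fintype.card X := by
  have hproj : LinearMap.IsProj (triSub r)
      (LinearMap.id - (1 / 3 : ℂ) • (LinearMap.id + pullL r + pullL (r ∘ r))) := by
    constructor
    · intro f x
      simp only [LinearMap.smul_apply, LinearMap.sub_apply, LinearMap.add_apply,
        LinearMap.id_apply, Pi.smul_apply, Pi.sub_apply, Pi.add_apply, pullL_apply, smul_eq_mul,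
        Function.comp_apply, hr]
      ring
    · intro f hf
      ext x
      have h1 := hf x
      simp only [LinearMap.smul_apply, LinearMap.sub_apply, LinearMap.add_apply,
        LinearMap.id_apply, Pi.smul_apply, Pi.sub_apply, Pi.add_apply, pullL_apply, smul_eq_mul,
        Function.comp_apply]
      linear_combination (-1 / 3 : ℂ) * h1
  have hfix : (Finset.univ.filter fun x => (r ∘ r) x = x)
      = (Finset.univ.filter fun x => r x = x) := by
    apply Finset.filter_congr
    intro x _
    constructor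
    · intro h
      have := congrArg r h
      simp only [Function.comp_apply, hr] at this
      exact this.symm
    · intro h
      simp only [Function.comp_apply, h]
  have htr := hproj.trace
  rw [map_sub, map_smul, map_add, map_add, LinearMap.trace_id, trace_pullL, trace_pullL, hfix,
    Module.finrank_fintype_fun_eq_card] at htr
  have h2 : (3 : ℂ) * (finrank ℂ (triSub r) : ℂ)
      + 2 * ((Finset.univ.filter fun x => r x = x).card : ℂ) = 2 * (Fintype.card X : ℂ) := by
    rw [← htr]; simp only [smul_eq_mul]; ring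
  exact_mod_cast h2

omit [DecidableEq X] in
lemma finrank_parSub_add_card_le {Ω : Type*} [Fintype Ω] (t : X → X) (m : ℕ) (hm : 0 < m)
    (q : X → Ω) (hq : Function.Surjective q) (hqt : ∀ x, q (t x) = q x) :
    finrank ℂ (parSub t m) + Fintype.card Ω ≤ Fintype.card X := by
  have hqi : ∀ (i : ℕ) (x : X), q (t^[i] x) = q x := by
    intro i
    induction i with
    | zero => intro x; rfl
    | succ k ih => intro x; rw [Function.iterate_succ_apply, ih, hqt]
  have hinj : Function.Injective (LinearMap.funLeft ℂ ℂ q) :=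
    LinearMap.funLeft_injective_of_surjective ℂ ℂ q hq
  have hdisj : Disjoint (parSub t m) (LinearMap.range (LinearMap.funLeft ℂ ℂ q)) := by
    rw [Submodule.disjoint_def]
    rintro f hf ⟨g, rfl⟩
    ext x
    have h1 := hf x
    simp only [LinearMap.funLeft_apply, hqi, Finset.sum_const, Finset.card_range,
      nsmul_eq_mul] at h1
    have hm' : (m : ℂ) ≠ 0 := by exact_mod_cast hm.ne'
    simpa [LinearMap.funLeft_apply, hm'] using h1
  have h := Submodule.finrank_add_finrank_le_of_disjoint hdisj
  rw [LinearMap.finrank_range_of_inj hinj, Module.finrank_fintype_fun_eq_card,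
    Module.finrank_fintype_fun_eq_card] at h
  exact h

omit [Fintype X] [DecidableEq X] in
lemma finrank_comap_add_finrank_range_le {V W : Type*} [AddCommGroup V] [Module ℂ V]
    [FiniteDimensional ℂ V] [AddCommGroup W] [Module ℂ W] [FiniteDimensional ℂ W]
    (f : V →ₗ[ℂ] W) (Q : Submodule ℂ W) :
    finrank ℂ (Q.comap f) + finrank ℂ (LinearMap.range f) ≤ finrank ℂ V + finrank ℂ Q := by
  set g : ↥(Q.comap f) →ₗ[ℂ] ↥Q := f.restrict (fun x hx => hx) with hg
  have h1 := LinearMap.finrank_range_add_finrank_ker g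
  have h2 := LinearMap.finrank_range_add_finrank_ker f
  have h3 : finrank ℂ (LinearMap.range g) ≤ finrank ℂ Q := Submodule.finrank_le _
  have h4 : finrank ℂ (LinearMap.ker g) ≤ finrank ℂ (LinearMap.ker f) := by
    rw [← Submodule.finrank_map_subtype_eq (Q.comap f) (LinearMap.ker g)]
    apply Submodule.finrank_mono
    rintro x ⟨y, hy, rfl⟩
    rw [SetLike.mem_coe, LinearMap.mem_ker] at hy
    have := congrArg Subtype.val hy
    simpa [hg] using this
  omega

/-- The map `(α, β) ↦ β − α ∘ t` on `antiSub s × triSub r`. -/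
noncomputable def cobL (s r t : X → X) : (↥(antiSub s) × ↥(triSub r)) →ₗ[ℂ] (X → ℂ) :=
  (triSub r).subtype ∘ₗ LinearMap.snd ℂ _ _
    - pullL t ∘ₗ (antiSub s).subtype ∘ₗ LinearMap.fst ℂ _ _

omit [Fintype X] [DecidableEq X] in
lemma cobL_apply (s r t : X → X) (p : ↥(antiSub s) × ↥(triSub r)) (x : X) :
    cobL s r t p x = (p.2 : X → ℂ) x - (p.1 : X → ℂ) (t x) := rfl

omit [Fintype X] [DecidableEq X] in
lemma sub_comp_r_mem_range (s r t : X → X) (hr : ∀ x, r (r (r x)) = x) (f : X → ℂ) :
    (f - f ∘ r) ∈ LinearMap.range (cobL s r t) := by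
  refine ⟨(0, ⟨f - f ∘ r, ?_⟩), ?_⟩
  · intro x; simp [hr]
  · ext x; simp [cobL_apply]

omit [Fintype X] [DecidableEq X] in
lemma sub_comp_t_mem_range (s r t : X → X) (hs : ∀ x, s (s x) = x)
    (hr : ∀ x, r (r (r x)) = x) (hrst : ∀ x, r x = s (t x)) (f : X → ℂ) :
    (f - f ∘ t) ∈ LinearMap.range (cobL s r t) := by
  refine ⟨(⟨f - f ∘ s, ?_⟩, ⟨f - f ∘ r, ?_⟩), ?_⟩
  · intro x; simp [hs]
  · intro x; simp [hr]
  · ext x; simp [cobL_apply, hrst]

omit [Fintype X] in
lemma single_sub_single_mem_range (s r t : X → X) (m : ℕ) (hs : ∀ x, s (s x) = x)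
    (hr : ∀ x, r (r (r x)) = x) (hrst : ∀ x, r x = s (t x)) (ht : ∀ x, t^[m + 1] x = x)
    (hconn : ∀ P : X → Prop, (∀ x, P x → P (r x)) → (∀ x, P x → P (t x)) → ∀ x y, P x → P y)
    (x y : X) :
    (Pi.single y (1 : ℂ) - Pi.single x (1 : ℂ) : X → ℂ) ∈ LinearMap.range (cobL s r t) := by
  have hrinj : Function.Injective r := by
    intro u v huv
    have := congrArg (fun z => r (r z)) huv
    simpa [hr] using this
  have htinj : Function.Injective t := by
    intro u v huv
    have := congrArg (fun z => t^[m] z) huv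
    simp only [← Function.iterate_succ_apply, ht] at this
    exact this
  refine hconn (fun y => (Pi.single y (1 : ℂ) - Pi.single x (1 : ℂ) : X → ℂ)
    ∈ LinearMap.range (cobL s r t)) ?_ ?_ x y ?_
  · intro y hy
    have h1 := sub_comp_r_mem_range s r t hr (Pi.single (r y) (1 : ℂ))
    have h2 : (Pi.single (r y) (1 : ℂ) : X → ℂ) ∘ r = Pi.single y (1 : ℂ) := by
      ext z
      simp only [Function.comp_apply, Pi.single_apply, hrinj.eq_iff]
    rw [h2] at h1
    have := Submodule.add_mem _ h1 hy
    simpa using this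
  · intro y hy
    have h1 := sub_comp_t_mem_range s r t hs hr hrst (Pi.single (t y) (1 : ℂ))
    have h2 : (Pi.single (t y) (1 : ℂ) : X → ℂ) ∘ t = Pi.single y (1 : ℂ) := by
      ext z
      simp only [Function.comp_apply, Pi.single_apply, htinj.eq_iff]
    rw [h2] at h1
    have := Submodule.add_mem _ h1 hy
    simpa using this
  · simp

lemma card_le_finrank_range_cobL [Nonempty X] (s r t : X → X) (m : ℕ) (hs : ∀ x, s (s x) = x)
    (hr : ∀ x, r (r (r x)) = x) (hrst : ∀ x, r x = s (t x)) (ht : ∀ x, t^[m + 1] x = x)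
    (hconn : ∀ P : X → Prop, (∀ x, P x → P (r x)) → (∀ x, P x → P (t x)) → ∀ x y, P x → P y) :
    Fintype.card X ≤ finrank ℂ (LinearMap.range (cobL s r t)) + 1 := by
  obtain ⟨x₀⟩ := ‹Nonempty X›
  have htop : (⊤ : Submodule ℂ (X → ℂ))
      ≤ LinearMap.range (cobL s r t) ⊔ Submodule.span ℂ {(Pi.single x₀ (1 : ℂ) : X → ℂ)} := by
    rw [← (Pi.basisFun ℂ X).span_eq, Submodule.span_le]
    rintro _ ⟨y, rfl⟩
    have h : (Pi.basisFun ℂ X) y
        = (Pi.single y (1 : ℂ) - Pi.single x₀ (1 : ℂ)) + Pi.single x₀ (1 : ℂ) := by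
      simp
    rw [SetLike.mem_coe, h]
    exact Submodule.add_mem_sup (single_sub_single_mem_range s r t m hs hr hrst ht hconn x₀ y)
      (Submodule.mem_span_singleton_self _)
  have h1 := Submodule.finrank_mono htop
  rw [finrank_top, Module.finrank_fintype_fun_eq_card] at h1
  have h2 := Submodule.finrank_add_le_finrank_add_finrank (LinearMap.range (cobL s r t))
    (Submodule.span ℂ {(Pi.single x₀ (1 : ℂ) : X → ℂ)})
  have h3 : finrank ℂ (Submodule.span ℂ {(Pi.single x₀ (1 : ℂ) : X → ℂ)}) = 1 := by
    apply finrank_span_singleton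
    intro h
    have := congrFun h x₀
    simp at this
  omega

/-- Abstract dimension bound: a space `H` of "parabolic cocycles" on a finite set `X` with
commuting-free data `s` (involution), `r` (order three), `t` (with `r = s ∘ t`, of finite
order), injecting into cocycles modulo coboundaries, satisfies the Riemann–Hurwitz-type bound. -/
theorem cocycle_dim_bound {H : Type*} [AddCommGroup H] [Module ℂ H] {Ω : Type*} [Fintype Ω]
    [Nonempty X] (s r t : X → X) (m : ℕ)
    (hs : ∀ x, s (s x) = x) (hr : ∀ x, r (r (r x)) = x) (hrst : ∀ x, r x = s (t x))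
    (ht : ∀ x, t^[m + 1] x = x)
    (hconn : ∀ P : X → Prop, (∀ x, P x → P (r x)) → (∀ x, P x → P (t x)) → ∀ x y, P x → P y)
    (q : X → Ω) (hq : Function.Surjective q) (hqt : ∀ x, q (t x) = q x)
    (a b : H →ₗ[ℂ] (X → ℂ))
    (ha : ∀ φ x, a φ (s x) + a φ x = 0)
    (hb : ∀ φ x, b φ x + b φ (r x) + b φ (r (r x)) = 0)
    (hpar : ∀ φ x, ∑ i ∈ Finset.range (m + 1), (b φ (t^[i] x) - a φ (t (t^[i] x))) = 0)
    (hinj : ∀ φ (v : X → ℂ), (∀ x, a φ x = v x - v (s x)) → (∀ x, b φ x = v x - v (r x)) →
      φ = 0) :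
    Module.Finite ℂ H ∧
      6 * finrank ℂ H + 3 * (Finset.univ.filter fun x => s x = x).card
        + 4 * (Finset.univ.filter fun x => r x = x).card + 6 * Fintype.card Ω
        ≤ Fintype.card X + 12 := by
  have hfin : Module.Finite ℂ H := by
    have hinj' : Function.Injective (a.prod b) := by
      rw [injective_iff_map_eq_zero]
      intro φ hφ
      have h1 : a φ = 0 := congrArg Prod.fst hφ
      have h2 : b φ = 0 := congrArg Prod.snd hφ
      exact hinj φ 0 (by intro x; simp [h1]) (by intro x; simp [h2])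
    exact Module.Finite.of_injective (a.prod b) hinj'
  refine ⟨hfin, ?_⟩
  -- the map `Θ`
  have hA : ∀ z : H × (X → ℂ),
      (a ∘ₗ LinearMap.fst ℂ H (X → ℂ) + (pullL s - LinearMap.id) ∘ₗ LinearMap.snd ℂ H (X → ℂ) :
        H × (X → ℂ) →ₗ[ℂ] (X → ℂ)) z ∈ antiSub s := by
    rintro ⟨φ, v⟩ x
    have h1 := ha φ x
    simp only [LinearMap.add_apply, LinearMap.comp_apply, LinearMap.fst_apply,
      LinearMap.snd_apply, LinearMap.sub_apply, LinearMap.id_apply, Pi.add_apply, Pi.sub_apply,
      pullL_apply, hs]
    linear_combination h1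
  have hB : ∀ z : H × (X → ℂ),
      (b ∘ₗ LinearMap.fst ℂ H (X → ℂ) + (pullL r - LinearMap.id) ∘ₗ LinearMap.snd ℂ H (X → ℂ) :
        H × (X → ℂ) →ₗ[ℂ] (X → ℂ)) z ∈ triSub r := by
    rintro ⟨φ, v⟩ x
    have h1 := hb φ x
    simp only [LinearMap.add_apply, LinearMap.comp_apply, LinearMap.fst_apply,
      LinearMap.snd_apply, LinearMap.sub_apply, LinearMap.id_apply, Pi.add_apply, Pi.sub_apply,
      pullL_apply, hr]
    linear_combination h1
  set Θ : H × (X → ℂ) →ₗ[ℂ] (↥(antiSub s) × ↥(triSub r)) :=
    LinearMap.prod (LinearMap.codRestrict (antiSub s) _ hA)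
      (LinearMap.codRestrict (triSub r) _ hB) with hΘ
  have hΘ1 : ∀ (φ : H) (v : X → ℂ) (x : X),
      ((Θ (φ, v)).1 : X → ℂ) x = a φ x + (v (s x) - v x) := fun φ v x => rfl
  have hΘ2 : ∀ (φ : H) (v : X → ℂ) (x : X),
      ((Θ (φ, v)).2 : X → ℂ) x = b φ x + (v (r x) - v x) := fun φ v x => rfl
  -- range of `Θ` lies in the parabolic part
  have hrange : LinearMap.range Θ ≤ (parSub t (m + 1)).comap (cobL s r t) := by
    rintro _ ⟨⟨φ, v⟩, rfl⟩
    rw [Submodule.mem_comap]
    intro x
    have h1 := hpar φ x
    have h2 := Finset.sum_range_sub (fun i => v (t^[i] x)) (m + 1)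
    simp only [Function.iterate_zero, id_eq, ht] at h2
    simp only [cobL_apply, hΘ1, hΘ2, hrst]
    simp only [Function.iterate_succ_apply'] at h2
    calc ∑ i ∈ Finset.range (m + 1), (b φ (t^[i] x) + (v (s (t (t^[i] x))) - v (t^[i] x))
          - (a φ (t (t^[i] x)) + (v (s (t (t^[i] x))) - v (t (t^[i] x)))))
        = ∑ i ∈ Finset.range (m + 1), (b φ (t^[i] x) - a φ (t (t^[i] x)))
          + ∑ i ∈ Finset.range (m + 1), (v (t (t^[i] x)) - v (t^[i] x)) := by
          rw [← Finset.sum_add_distrib]
          apply Finset.sum_congr rfl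
          intro i _
          ring
      _ = 0 := by rw [h1, h2]; ring
  -- kernel of `Θ` consists of constants
  have hker : LinearMap.ker Θ ≤ Submodule.span ℂ {((0 : H), (fun _ => (1 : ℂ) : X → ℂ))} := by
    rintro ⟨φ, v⟩ hz
    rw [LinearMap.mem_ker] at hz
    have e1 : ∀ x, a φ x + (v (s x) - v x) = 0 := by
      intro x
      rw [← hΘ1, hz]; rfl
    have e2 : ∀ x, b φ x + (v (r x) - v x) = 0 := by
      intro x
      rw [← hΘ2, hz]; rfl
    have hφ : φ = 0 := hinj φ v (fun x => by linear_combination e1 x)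
      (fun x => by linear_combination e2 x)
    subst hφ
    have vs : ∀ x, v (s x) = v x := by
      intro x
      have := e1 x
      simp only [map_zero, Pi.zero_apply, zero_add] at this
      linear_combination this
    have vr : ∀ x, v (r x) = v x := by
      intro x
      have := e2 x
      simp only [map_zero, Pi.zero_apply, zero_add] at this
      linear_combination this
    have vt : ∀ x, v (t x) = v x := by
      intro x
      rw [← vr x, hrst, vs]
    obtain ⟨x₀⟩ := ‹Nonempty X›
    have hconst : ∀ y, v y = v x₀ := fun y =>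
      hconn (fun y => v y = v x₀) (fun x hx => by rw [vr, hx]) (fun x hx => by rw [vt, hx])
        x₀ y rfl
    rw [Submodule.mem_span_singleton]
    refine ⟨v x₀, ?_⟩
    ext x
    · simp
    · simp [hconst x]
  -- dimension count
  have k1 := LinearMap.finrank_range_add_finrank_ker Θ
  have k2 : finrank ℂ (LinearMap.ker Θ) ≤ 1 := by
    refine (Submodule.finrank_mono hker).trans ?_
    exact (finrank_span_le_card _).trans (by simp)
  have k3 := Submodule.finrank_mono hrange
  have k4 := finrank_comap_add_finrank_range_le (cobL s r t) (parSub t (m + 1))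
  have k5 := card_le_finrank_range_cobL s r t m hs hr hrst ht hconn
  have k6 := two_mul_finrank_antiSub s hs
  have k7 := three_mul_finrank_triSub r hr
  have k8 := finrank_parSub_add_card_le t (m + 1) (Nat.succ_pos m) q hq hqt
  have k9 : finrank ℂ (H × (X → ℂ)) = finrank ℂ H + Fintype.card X := by
    rw [Module.finrank_prod, Module.finrank_fintype_fun_eq_card]
  have k10 : finrank ℂ (↥(antiSub s) × ↥(triSub r))
      = finrank ℂ (antiSub s) + finrank ℂ (triSub r) := Module.finrank_prod
  omega

end Main

end Fermat.Agent.S21.CocycleDim
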